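/-
GATE-J27 (S27) / node B3 = GJ27-RED, file 1 (helper82): the ABSTRACT "fraction" construction of a
reduction datum.  Mathlib + `GJ/J1/Defs` only.  RANK-FREE (the valuation ring `A` of the base field
is arbitrary).

`F ⊇ K` fields, `A` a valuation subring of `K` with residue map `res : A ↠ k`, `O ⊆ F` a subring
containing `A` (an "`A`-order"), `ρ : O ↠ D` a surjective ring hom onto a DOMAIN `D` with
`ρ a = res a` on `A`, and the CONTENT property: every `x ≠ 0` in `F` satisfies `x * b = c * a` with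
`c ∈ Kˣ`, `a b ∈ O`, `ρ a ≠ 0`, `ρ b ≠ 0`.  Then

* `Rw := {a / b | a b ∈ O, ρ b ≠ 0}` is a valuation subring of `F`, `Rw ∩ K = A`;
* every `x ≠ 0` is a constant of `K` times a unit of `Rw` (`hunram`);
* `red : Rw →+* Ft`, `a / b ↦ ρ a / ρ b` (`Ft` any fraction field of `D`) is onto with kernel the
  maximal ideal;
* `redData : RedData K F k Ft`.
-/
import Mathlib
import Fermat.Agent.GJ.J1.Defs

set_option autoImplicit false

noncomputable section

namespace Fermat.Agent.GJ27.Red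

open Fermat.Agent.GJ.J1

/-- the input of the fraction construction. -/
structure FracFrame (K F k D : Type*) [Field K] [Field F] [Algebra K F] [Field k]
    [CommRing D] [IsDomain D] [Algebra k D] where
  /-- the valuation ring of the base field -/
  A : ValuationSubring K
  /-- its residue map -/
  res : A →+* k
  res_surjective : Function.Surjective res
  /-- the order -/
  O : Subring F
  algebraMap_mem : ∀ a : A, algebraMap K F (a : K) ∈ O
  /-- the reduction of the order -/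
  rho : O →+* D
  rho_surjective : Function.Surjective rho
  rho_algebraMap : ∀ a : A, rho ⟨algebraMap K F (a : K), algebraMap_mem a⟩ = algebraMap k D (res a)
  /-- the content property -/
  content : ∀ x : F, x ≠ 0 → ∃ (c : K) (a b : O), c ≠ 0 ∧ rho a ≠ 0 ∧ rho b ≠ 0 ∧
    x * (b : F) = algebraMap K F c * (a : F)

namespace FracFrame

variable {K F k D : Type*} [Field K] [Field F] [Algebra K F] [Field k]
  [CommRing D] [IsDomain D] [Algebra k D] (Φ : FracFrame K F k D)

/-- the element of the order given by an element of `A`. -/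
def ofA (a : Φ.A) : Φ.O := ⟨algebraMap K F (a : K), Φ.algebraMap_mem a⟩

@[simp] theorem coe_ofA (a : Φ.A) : ((Φ.ofA a : Φ.O) : F) = algebraMap K F (a : K) := rfl

theorem rho_ofA (a : Φ.A) : Φ.rho (Φ.ofA a) = algebraMap k D (Φ.res a) := Φ.rho_algebraMap a

/-- the kernel of the residue map is the maximal ideal. -/
theorem res_eq_zero_iff (a : Φ.A) : Φ.res a = 0 ↔ a ∈ IsLocalRing.maximalIdeal Φ.A := by
  constructor
  · intro h
    rw [IsLocalRing.mem_maximalIdeal, mem_nonunits_iff]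
    intro hu
    have := hu.map Φ.res
    rw [h] at this
    exact not_isUnit_zero this
  · intro h
    by_contra h0
    obtain ⟨b, hb⟩ := Φ.res_surjective (Φ.res a)⁻¹
    have h1 : Φ.res (a * b) = 1 := by rw [map_mul, hb, mul_inv_cancel₀ h0]
    have h2 : a * b ∈ IsLocalRing.maximalIdeal Φ.A := Ideal.mul_mem_right _ _ h
    have h3 : IsUnit (1 - a * b) := by
      have := IsLocalRing.isUnit_one_sub_self_of_mem_nonunits (a * b) h2
      exact this
    have h4 : Φ.res (1 - a * b) = 0 := by rw [map_sub, map_one, h1, sub_self]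
    have := h3.map Φ.res
    rw [h4] at this
    exact not_isUnit_zero this

/-- `x = a / b` with `a b ∈ O`, `ρ b ≠ 0`. -/
def IsFrac (x : F) (a b : Φ.O) : Prop := Φ.rho b ≠ 0 ∧ x * (b : F) = (a : F)

variable {Φ}

theorem IsFrac.den_ne_zero {x : F} {a b : Φ.O} (h : Φ.IsFrac x a b) : (b : F) ≠ 0 := by
  intro h0
  apply h.1
  have : b = 0 := Subtype.ext h0
  rw [this, map_zero]

theorem IsFrac.zero : Φ.IsFrac 0 0 1 :=
  ⟨by rw [map_one]; exact one_ne_zero, by simp⟩

theorem IsFrac.one : Φ.IsFrac 1 1 1 :=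
  ⟨by rw [map_one]; exact one_ne_zero, by simp⟩

theorem IsFrac.of_mem (a : Φ.O) : Φ.IsFrac (a : F) a 1 :=
  ⟨by rw [map_one]; exact one_ne_zero, by simp⟩

theorem IsFrac.add {x y : F} {a b a' b' : Φ.O} (h : Φ.IsFrac x a b) (h' : Φ.IsFrac y a' b') :
    Φ.IsFrac (x + y) (a * b' + a' * b) (b * b') := by
  refine ⟨by rw [map_mul]; exact mul_ne_zero h.1 h'.1, ?_⟩
  push_cast
  rw [← h.2, ← h'.2]
  ring

theorem IsFrac.mul {x y : F} {a b a' b' : Φ.O} (h : Φ.IsFrac x a b) (h' : Φ.IsFrac y a' b') :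
    Φ.IsFrac (x * y) (a * a') (b * b') := by
  refine ⟨by rw [map_mul]; exact mul_ne_zero h.1 h'.1, ?_⟩
  push_cast
  rw [← h.2, ← h'.2]
  ring

theorem IsFrac.neg {x : F} {a b : Φ.O} (h : Φ.IsFrac x a b) : Φ.IsFrac (-x) (-a) b := by
  refine ⟨h.1, ?_⟩
  push_cast
  rw [← h.2]
  ring

/-- the inverse of a fraction with `ρ a ≠ 0`. -/
theorem IsFrac.inv {x : F} {a b : Φ.O} (h : Φ.IsFrac x a b) (ha : Φ.rho a ≠ 0) :
    Φ.IsFrac x⁻¹ b a := by
  refine ⟨ha, ?_⟩
  have ha0 : (a : F) ≠ 0 := by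
    intro h0
    apply ha
    have : a = 0 := Subtype.ext h0
    rw [this, map_zero]
  have hx : x ≠ 0 := by
    intro hx
    apply ha0
    rw [← h.2, hx, zero_mul]
  rw [← h.2]
  field_simp

/-- two representations of the same element have the same reduced fraction. -/
theorem IsFrac.cross {x : F} {a b a' b' : Φ.O} (h : Φ.IsFrac x a b) (h' : Φ.IsFrac x a' b') :
    Φ.rho a * Φ.rho b' = Φ.rho a' * Φ.rho b := by
  rw [← map_mul, ← map_mul]
  congr 1
  apply Subtype.ext
  push_cast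
  rw [← h.2, ← h'.2]
  ring

variable (Φ)

/-- **the valuation ring of the fraction construction.** -/
def Rw : ValuationSubring F where
  carrier := {x | ∃ a b : Φ.O, Φ.IsFrac x a b}
  mul_mem' := by
    rintro x y ⟨a, b, h⟩ ⟨a', b', h'⟩
    exact ⟨_, _, h.mul h'⟩
  one_mem' := ⟨1, 1, IsFrac.one⟩
  add_mem' := by
    rintro x y ⟨a, b, h⟩ ⟨a', b', h'⟩
    exact ⟨_, _, h.add h'⟩
  zero_mem' := ⟨0, 1, IsFrac.zero⟩
  neg_mem' := by
    rintro x ⟨a, b, h⟩
    exact ⟨_, _, h.neg⟩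
  mem_or_inv_mem' := by
    intro x
    by_cases hx : x = 0
    · left
      rw [hx]
      exact ⟨0, 1, IsFrac.zero⟩
    obtain ⟨c, a, b, hc, ha, hb, hxab⟩ := Φ.content x hx
    rcases Φ.A.mem_or_inv_mem c with hcA | hcA
    · left
      refine ⟨Φ.ofA ⟨c, hcA⟩ * a, b, hb, ?_⟩
      push_cast
      rw [hxab]
      rfl
    · right
      refine ⟨Φ.ofA ⟨c⁻¹, hcA⟩ * b, a, ha, ?_⟩
      push_cast
      have ha0 : (a : F) ≠ 0 := by
        intro h0
        apply ha
        have : a = 0 := Subtype.ext h0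
        rw [this, map_zero]
      have hcF : algebraMap K F c ≠ 0 := by
        rw [ne_eq, map_eq_zero]
        exact hc
      show x⁻¹ * (a : F) = algebraMap K F c⁻¹ * (b : F)
      rw [map_inv₀]
      have : (b : F) = x⁻¹ * (algebraMap K F c * (a : F)) := by
        rw [← hxab, inv_mul_cancel_left₀ hx]
      rw [this]
      field_simp

theorem mem_Rw {x : F} : x ∈ Φ.Rw ↔ ∃ a b : Φ.O, Φ.IsFrac x a b := Iff.rfl

theorem mem_Rw_of_mem {x : F} (hx : x ∈ Φ.O) : x ∈ Φ.Rw :=
  ⟨⟨x, hx⟩, 1, IsFrac.of_mem (Φ := Φ) ⟨x, hx⟩⟩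

/-- **`hunram`**: every nonzero element is a constant times a unit of `Rw`. -/
theorem hunram (x : F) (hx : x ≠ 0) : ∃ c : K, c ≠ 0 ∧
    x / algebraMap K F c ∈ Φ.Rw ∧ (x / algebraMap K F c)⁻¹ ∈ Φ.Rw := by
  obtain ⟨c, a, b, hc, ha, hb, hxab⟩ := Φ.content x hx
  have hcF : algebraMap K F c ≠ 0 := by
    rw [ne_eq, map_eq_zero]
    exact hc
  have h1 : Φ.IsFrac (x / algebraMap K F c) a b := by
    refine ⟨hb, ?_⟩
    rw [div_mul_eq_mul_div, hxab, mul_div_assoc, mul_comm, div_mul_cancel₀ _ hcF]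
  exact ⟨c, hc, ⟨a, b, h1⟩, ⟨b, a, h1.inv ha⟩⟩

variable {Ft : Type*} [Field Ft] [Algebra D Ft] [IsFractionRing D Ft]

/-- numerator and denominator of an element of `Rw` (by choice). -/
def num (x : Φ.Rw) : Φ.O := x.2.choose

/-- see `num`. -/
def den (x : Φ.Rw) : Φ.O := x.2.choose_spec.choose

theorem isFrac_num_den (x : Φ.Rw) : Φ.IsFrac (x : F) (Φ.num x) (Φ.den x) :=
  x.2.choose_spec.choose_spec

/-- the value of the reduction. -/
def redFun (Ft : Type*) [Field Ft] [Algebra D Ft] (x : Φ.Rw) : Ft :=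
  algebraMap D Ft (Φ.rho (Φ.num x)) / algebraMap D Ft (Φ.rho (Φ.den x))

theorem algebraMap_rho_ne_zero {b : Φ.O} (hb : Φ.rho b ≠ 0) : algebraMap D Ft (Φ.rho b) ≠ 0 := by
  rw [ne_eq, map_eq_zero_iff _ (IsFractionRing.injective D Ft)]
  exact hb

theorem redFun_eq (x : Φ.Rw) {a b : Φ.O} (h : Φ.IsFrac (x : F) a b) :
    Φ.redFun Ft x = algebraMap D Ft (Φ.rho a) / algebraMap D Ft (Φ.rho b) := by
  have h0 := Φ.isFrac_num_den x
  rw [redFun, div_eq_div_iff (Φ.algebraMap_rho_ne_zero h0.1) (Φ.algebraMap_rho_ne_zero h.1),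
    ← map_mul (algebraMap D Ft), ← map_mul (algebraMap D Ft), h0.cross h]

/-- **the reduction map** `a / b ↦ ρ a / ρ b`. -/
def red (Ft : Type*) [Field Ft] [Algebra D Ft] [IsFractionRing D Ft] : Φ.Rw →+* Ft where
  toFun := Φ.redFun Ft
  map_one' := by
    rw [Φ.redFun_eq (1 : Φ.Rw) (a := 1) (b := 1) IsFrac.one]
    simp
  map_mul' x y := by
    rw [Φ.redFun_eq (x * y) ((Φ.isFrac_num_den x).mul (Φ.isFrac_num_den y))]
    simp only [map_mul, redFun]
    rw [div_mul_div_comm]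
  map_zero' := by
    rw [Φ.redFun_eq (0 : Φ.Rw) (a := 0) (b := 1) IsFrac.zero]
    simp
  map_add' x y := by
    have hx := Φ.isFrac_num_den x
    have hy := Φ.isFrac_num_den y
    rw [Φ.redFun_eq (x + y) (hx.add hy)]
    simp only [map_mul, map_add, redFun]
    rw [div_add_div _ _ (Φ.algebraMap_rho_ne_zero hx.1) (Φ.algebraMap_rho_ne_zero hy.1)]
    congr 1
    ring

theorem red_eq (x : Φ.Rw) {a b : Φ.O} (h : Φ.IsFrac (x : F) a b) :
    Φ.red Ft x = algebraMap D Ft (Φ.rho a) / algebraMap D Ft (Φ.rho b) :=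
  Φ.redFun_eq x h

/-- the reduction of an element of the order. -/
theorem red_of_mem (a : Φ.O) :
    Φ.red Ft ⟨(a : F), Φ.mem_Rw_of_mem a.2⟩ = algebraMap D Ft (Φ.rho a) := by
  rw [Φ.red_eq ⟨(a : F), Φ.mem_Rw_of_mem a.2⟩ (IsFrac.of_mem a)]
  simp

theorem red_surjective : Function.Surjective (Φ.red Ft) := by
  intro z
  obtain ⟨d₁, d₂, hd₂, rfl⟩ := IsFractionRing.div_surjective (A := D) z
  obtain ⟨a, rfl⟩ := Φ.rho_surjective d₁
  obtain ⟨b, rfl⟩ := Φ.rho_surjective d₂
  have hb : Φ.rho b ≠ 0 := nonZeroDivisors.ne_zero hd₂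
  have hb0 : (b : F) ≠ 0 := by
    intro h0
    apply hb
    have : b = 0 := Subtype.ext h0
    rw [this, map_zero]
  have hfr : Φ.IsFrac ((a : F) / (b : F)) a b := ⟨hb, div_mul_cancel₀ _ hb0⟩
  exact ⟨⟨(a : F) / (b : F), a, b, hfr⟩, Φ.red_eq _ hfr⟩

theorem red_eq_zero_iff (x : Φ.Rw) : Φ.red Ft x = 0 ↔ x ∈ IsLocalRing.maximalIdeal Φ.Rw := by
  have h0 := Φ.isFrac_num_den x
  rw [Φ.red_eq x h0, div_eq_zero_iff, or_iff_left (Φ.algebraMap_rho_ne_zero h0.1),
    map_eq_zero_iff _ (IsFractionRing.injective D Ft), IsLocalRing.mem_maximalIdeal,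
    mem_nonunits_iff]
  constructor
  · intro ha hu
    obtain ⟨y, hy⟩ := hu.exists_right_inv
    have h1 := Φ.isFrac_num_den y
    have h2 : Φ.IsFrac ((x : F) * (y : F)) (Φ.num x * Φ.num y) (Φ.den x * Φ.den y) := h0.mul h1
    have h3 : (x : F) * (y : F) = 1 := by
      have := congrArg (fun z : Φ.Rw => (z : F)) hy
      simpa using this
    rw [h3] at h2
    have h4 := h2.cross IsFrac.one
    rw [map_mul, ha, zero_mul, zero_mul, map_one, one_mul, map_mul] at h4
    exact mul_ne_zero h0.1 h1.1 h4.symm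
  · intro hu
    by_contra ha
    apply hu
    have hinv := h0.inv ha
    have hx0 : (x : F) ≠ 0 := by
      intro hx
      apply ha
      have h5 : ((Φ.num x : Φ.O) : F) = 0 := by rw [← h0.2, hx, zero_mul]
      have : Φ.num x = 0 := Subtype.ext h5
      rw [this, map_zero]
    refine isUnit_iff_exists_inv.2 ⟨⟨(x : F)⁻¹, _, _, hinv⟩, ?_⟩
    apply Subtype.ext
    show (x : F) * (x : F)⁻¹ = 1
    exact mul_inv_cancel₀ hx0

theorem mem_A_iff (a : K) : a ∈ Φ.A ↔ algebraMap K F a ∈ Φ.Rw := by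
  constructor
  · intro ha
    exact Φ.mem_Rw_of_mem (Φ.algebraMap_mem ⟨a, ha⟩)
  · rintro ⟨u, v, hv, huv⟩
    by_contra ha
    have ha0 : a ≠ 0 := by
      rintro rfl
      exact ha (zero_mem _)
    have hinv : a⁻¹ ∈ Φ.A := (Φ.A.mem_or_inv_mem a).resolve_left ha
    have hmax : (⟨a⁻¹, hinv⟩ : Φ.A) ∈ IsLocalRing.maximalIdeal Φ.A := by
      rw [IsLocalRing.mem_maximalIdeal, mem_nonunits_iff]
      intro hu
      obtain ⟨w, hw⟩ := hu.exists_right_inv
      apply ha
      have h1 : a⁻¹ * (w : K) = 1 := by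
        have := congrArg (fun z : Φ.A => (z : K)) hw
        simpa using this
      have h2 : (w : K) = a := by
        have := congrArg (fun z => a * z) h1
        simp only [mul_one] at this
        rw [← this, mul_inv_cancel_left₀ ha0]
      rw [← h2]
      exact w.2
    have hres : Φ.res ⟨a⁻¹, hinv⟩ = 0 := (Φ.res_eq_zero_iff _).2 hmax
    apply hv
    have hv' : v = Φ.ofA ⟨a⁻¹, hinv⟩ * u := by
      apply Subtype.ext
      push_cast
      rw [← huv, coe_ofA]
      show (v : F) = algebraMap K F a⁻¹ * (algebraMap K F a * (v : F))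
      rw [map_inv₀, inv_mul_cancel_left₀]
      rw [ne_eq, map_eq_zero]
      exact ha0
    rw [hv', map_mul, Φ.rho_ofA, hres, map_zero, zero_mul]

variable [Algebra k Ft] [IsScalarTower k D Ft]

/-- **the reduction datum of the fraction construction.** -/
def redData (Ft : Type*) [Field Ft] [Algebra D Ft] [IsFractionRing D Ft] [Algebra k Ft]
    [IsScalarTower k D Ft] : RedData K F k Ft where
  Rw := Φ.Rw
  A := Φ.A
  mem_A_iff := Φ.mem_A_iff
  red := Φ.red Ft
  red_surjective := Φ.red_surjective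
  red_eq_zero_iff := Φ.red_eq_zero_iff
  res := Φ.res
  res_surjective := Φ.res_surjective
  red_algebraMap a := by
    have h := Φ.red_of_mem (Ft := Ft) (Φ.ofA a)
    rw [Φ.rho_ofA, ← IsScalarTower.algebraMap_apply] at h
    exact h

@[simp] theorem redData_Rw : (Φ.redData Ft).Rw = Φ.Rw := rfl

@[simp] theorem redData_A : (Φ.redData Ft).A = Φ.A := rfl

@[simp] theorem redData_red : (Φ.redData Ft).red = Φ.red Ft := rfl

@[simp] theorem redData_res : (Φ.redData Ft).res = Φ.res := rfl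

/-- `hunram` for the reduction datum. -/
theorem redData_hunram (x : F) (hx : x ≠ 0) : ∃ c : K, c ≠ 0 ∧
    x / algebraMap K F c ∈ (Φ.redData Ft).Rw ∧ (x / algebraMap K F c)⁻¹ ∈ (Φ.redData Ft).Rw :=
  Φ.hunram x hx

/-- the reduction of an element of the order, in `RedData` form. -/
theorem redData_red_of_mem (a : Φ.O) :
    (Φ.redData Ft).red ⟨(a : F), Φ.mem_Rw_of_mem a.2⟩ = algebraMap D Ft (Φ.rho a) :=
  Φ.red_of_mem a

end FracFrame

end Fermat.Agent.GJ27.Red
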