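/-
GATE-J27 (S27) / node B3 (GJ27-RED), FILE 3 = GJ27-RED-FROB (helper99, second seat of helper82).

The Frobenius structure `FrobStr p k Ft` (vocabulary pin `GJ27/Vocab.lean`) on the function field
`Ft = Frac D` of a plane model `D = k[X][Y]/(Pt)` whose coefficients are fixed by `a ↦ a ^ q`,
`q = p ^ f`, over a field `k` of characteristic `p` that is locally finite (`∀ a, ∃ n > 0,
a ^ (p ^ n) = a`, e.g. `k` algebraic over `ZMod p`).

* `IsPer σ x`              : `x` is fixed by a positive power of the ring endomorphism `σ`.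
* `IsPer.add/mul/neg/inv…` : the locally periodic elements form a subring (subfield).
* `bijective_of_isPer`     : an everywhere locally periodic endomorphism is bijective.
* `exists_pow_eq_self_of_isAlgebraic` : `k` algebraic over `ZMod p` is locally finite.
* `isPer_of_adjoin_eq_top` : `σ = q`-Frobenius on constants, `σ` fixes a generating set ⟹ every
                             element is locally periodic.
* `frobStrOfRingHom`       : `FrobStr` from an everywhere locally periodic endomorphism of `Ft`.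
* `frobStrOfFraction`      : **generic constructor**: `FrobStr p k Ft` from `σD : D →+* D` on a
                             domain `D` with `Frac D = Ft`.
* `sigmaAR`, `frobStrAdjoinRoot` : the instance `D = AdjoinRoot Pt`, `Pt : k[X][Y]`.
-/
import Mathlib
import Fermat.Agent.GJ27.Vocab

set_option autoImplicit false

noncomputable section

namespace Fermat.Agent.GJ27.Red.Frob

open Polynomial

/-! ### (A) locally periodic elements of a ring endomorphism -/

section Per

variable {R : Type*} [CommRing R]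

/-- `x` is fixed by a positive power of `σ`. -/
def IsPer (σ : R →+* R) (x : R) : Prop := ∃ n : ℕ, 0 < n ∧ (σ ^ n) x = x

theorem pow_apply_of_fixed {τ : R →+* R} {x : R} (h : τ x = x) (m : ℕ) : (τ ^ m) x = x := by
  induction m with
  | zero => simp
  | succ m ih => rw [pow_succ, RingHom.mul_def, RingHom.comp_apply, h, ih]

theorem pow_mul_apply_of_fixed {σ : R →+* R} {x : R} {n : ℕ} (h : (σ ^ n) x = x) (m : ℕ) :
    (σ ^ (n * m)) x = x := by
  rw [pow_mul]
  exact pow_apply_of_fixed h m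

theorem pow_mul_apply_of_fixed' {σ : R →+* R} {x : R} {n : ℕ} (h : (σ ^ n) x = x) (m : ℕ) :
    (σ ^ (m * n)) x = x := by
  rw [mul_comm]
  exact pow_mul_apply_of_fixed h m

variable (σ : R →+* R)

theorem isPer_zero : IsPer σ 0 := ⟨1, one_pos, map_zero _⟩

theorem isPer_one : IsPer σ 1 := ⟨1, one_pos, map_one _⟩

variable {σ}

theorem isPer_of_fixed {x : R} (h : σ x = x) : IsPer σ x := ⟨1, one_pos, by simpa using h⟩

theorem IsPer.add {x y : R} (hx : IsPer σ x) (hy : IsPer σ y) : IsPer σ (x + y) := by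
  obtain ⟨n, hn, hx⟩ := hx
  obtain ⟨m, hm, hy⟩ := hy
  exact ⟨n * m, Nat.mul_pos hn hm, by
    rw [map_add, pow_mul_apply_of_fixed hx m, pow_mul_apply_of_fixed' hy n]⟩

theorem IsPer.mul {x y : R} (hx : IsPer σ x) (hy : IsPer σ y) : IsPer σ (x * y) := by
  obtain ⟨n, hn, hx⟩ := hx
  obtain ⟨m, hm, hy⟩ := hy
  exact ⟨n * m, Nat.mul_pos hn hm, by
    rw [map_mul, pow_mul_apply_of_fixed hx m, pow_mul_apply_of_fixed' hy n]⟩

theorem IsPer.neg {x : R} (hx : IsPer σ x) : IsPer σ (-x) := by
  obtain ⟨n, hn, hx⟩ := hx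
  exact ⟨n, hn, by rw [map_neg, hx]⟩

theorem IsPer.sub {x y : R} (hx : IsPer σ x) (hy : IsPer σ y) : IsPer σ (x - y) := by
  rw [sub_eq_add_neg]
  exact hx.add hy.neg

theorem IsPer.pow {x : R} (hx : IsPer σ x) (m : ℕ) : IsPer σ (x ^ m) := by
  obtain ⟨n, hn, hx⟩ := hx
  exact ⟨n, hn, by rw [map_pow, hx]⟩

/-- the subring of locally periodic elements. -/
def perSubring (σ : R →+* R) : Subring R where
  carrier := {x | IsPer σ x}
  mul_mem' := IsPer.mul
  one_mem' := isPer_one σ
  add_mem' := IsPer.add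
  zero_mem' := isPer_zero σ
  neg_mem' := IsPer.neg

@[simp] theorem mem_perSubring {x : R} : x ∈ perSubring σ ↔ IsPer σ x := Iff.rfl

/-- an everywhere locally periodic ring endomorphism is bijective. -/
theorem bijective_of_isPer (hper : ∀ x : R, IsPer σ x) : Function.Bijective σ := by
  refine ⟨?_, ?_⟩
  · rw [injective_iff_map_eq_zero]
    intro z hz
    obtain ⟨n, hn, hfix⟩ := hper z
    obtain ⟨m, rfl⟩ : ∃ m, n = m + 1 := ⟨n - 1, by omega⟩
    rw [← hfix, pow_succ, RingHom.mul_def, RingHom.comp_apply, hz, map_zero]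
  · intro x
    obtain ⟨n, hn, hfix⟩ := hper x
    obtain ⟨m, rfl⟩ : ∃ m, n = m + 1 := ⟨n - 1, by omega⟩
    refine ⟨(σ ^ m) x, ?_⟩
    rw [pow_succ', RingHom.mul_def, RingHom.comp_apply] at hfix
    exact hfix

end Per

section PerField

variable {L : Type*} [Field L] {σ : L →+* L}

theorem IsPer.inv {x : L} (hx : IsPer σ x) : IsPer σ x⁻¹ := by
  obtain ⟨n, hn, hx⟩ := hx
  exact ⟨n, hn, by rw [map_inv₀, hx]⟩

theorem IsPer.div {x y : L} (hx : IsPer σ x) (hy : IsPer σ y) : IsPer σ (x / y) := by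
  rw [div_eq_mul_inv]
  exact hx.mul hy.inv

/-- the subfield of locally periodic elements. -/
def perSubfield (σ : L →+* L) : Subfield L where
  toSubring := perSubring σ
  inv_mem' := fun _ hx => IsPer.inv hx

@[simp] theorem mem_perSubfield {x : L} : x ∈ perSubfield σ ↔ IsPer σ x := Iff.rfl

end PerField

/-! ### (B) local finiteness of the constant field -/

section LocFin

/-- a field algebraic over `ZMod p` is locally finite: every element is fixed by a power of the
Frobenius. -/
theorem exists_pow_eq_self_of_isAlgebraic (p : ℕ) [Fact p.Prime] {k : Type*} [Field k]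
    [Algebra (ZMod p) k] [Algebra.IsAlgebraic (ZMod p) k] (a : k) :
    ∃ n : ℕ, 0 < n ∧ a ^ (p ^ n) = a := by
  have hint : IsIntegral (ZMod p) a := (Algebra.IsAlgebraic.isAlgebraic a).isIntegral
  let E : IntermediateField (ZMod p) k := IntermediateField.adjoin (ZMod p) {a}
  have : FiniteDimensional (ZMod p) E := IntermediateField.adjoin.finiteDimensional hint
  have : Finite E := Module.finite_of_finite (ZMod p)
  have : Fintype E := Fintype.ofFinite E
  have : CharP E p := charP_of_injective_algebraMap (algebraMap (ZMod p) E).injective p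
  obtain ⟨n, _, hn⟩ := FiniteField.card E p
  have h := FiniteField.pow_card (⟨a, IntermediateField.mem_adjoin_simple_self _ a⟩ : E)
  rw [hn] at h
  refine ⟨n, n.pos, ?_⟩
  have h2 := congrArg (fun x : E => (x : k)) h
  simpa using h2

/-- the `q`-power version (`q = p ^ f`). -/
theorem exists_pow_pow_eq_self {p : ℕ} {k : Type*} [Field k]
    (hk : ∀ a : k, ∃ n : ℕ, 0 < n ∧ a ^ (p ^ n) = a) (f : ℕ) (a : k) :
    ∃ n : ℕ, 0 < n ∧ a ^ ((p ^ f) ^ n) = a := by
  obtain ⟨n, hn, ha⟩ := hk a
  refine ⟨n, hn, ?_⟩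
  rw [← pow_mul, mul_comm, pow_mul]
  -- `a ^ ((p ^ n) ^ f) = a`
  induction f with
  | zero => simp
  | succ f ih => rw [pow_succ, pow_mul, ih, ha]

end LocFin

/-! ### (C) the generic constructor -/

section Constructor

variable {p : ℕ} {k : Type*} [Field k]

/-- `σ` is the `q`-Frobenius on constants (`q = p ^ f`) ⟹ constants are locally periodic. -/
theorem isPer_algebraMap {D : Type*} [CommRing D] [Algebra k D] {σ : D →+* D} {f : ℕ}
    (hk : ∀ a : k, ∃ n : ℕ, 0 < n ∧ a ^ (p ^ n) = a)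
    (hσk : ∀ a : k, σ (algebraMap k D a) = algebraMap k D (a ^ (p ^ f))) (a : k) :
    IsPer σ (algebraMap k D a) := by
  have hpow : ∀ (n : ℕ) (b : k), (σ ^ n) (algebraMap k D b) = algebraMap k D (b ^ ((p ^ f) ^ n)) := by
    intro n
    induction n with
    | zero => intro b; simp
    | succ n ih =>
      intro b
      rw [pow_succ, RingHom.mul_def, RingHom.comp_apply, hσk, ih, ← pow_mul, ← pow_succ']
  obtain ⟨n, hn, ha⟩ := exists_pow_pow_eq_self hk f a
  exact ⟨n, hn, by rw [hpow, ha]⟩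

/-- `σ` is the `q`-Frobenius on constants and fixes a generating set ⟹ every element is locally
periodic. -/
theorem isPer_of_adjoin_eq_top {D : Type*} [CommRing D] [Algebra k D] {σ : D →+* D} {f : ℕ}
    (hk : ∀ a : k, ∃ n : ℕ, 0 < n ∧ a ^ (p ^ n) = a)
    (hσk : ∀ a : k, σ (algebraMap k D a) = algebraMap k D (a ^ (p ^ f)))
    (S : Set D) (hS : Algebra.adjoin k S = ⊤) (hfix : ∀ s ∈ S, σ s = s) (x : D) : IsPer σ x := by
  have hx : x ∈ Algebra.adjoin k S := hS ▸ Algebra.mem_top
  induction hx using Algebra.adjoin_induction with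
  | mem s hs => exact isPer_of_fixed (hfix s hs)
  | algebraMap a => exact isPer_algebraMap hk hσk a
  | add x y _ _ hx hy => exact hx.add hy
  | mul x y _ _ hx hy => exact hx.mul hy

variable {Ft : Type*} [Field Ft] [Algebra k Ft]

theorem ofBijective_pow_apply (σ : Ft →+* Ft) (h : Function.Bijective σ) (n : ℕ) (x : Ft) :
    ((RingEquiv.ofBijective σ h : Ft ≃+* Ft) ^ n) x = (σ ^ n) x := by
  induction n generalizing x with
  | zero => simp
  | succ n ih =>
    rw [pow_succ, RingAut.mul_apply, pow_succ, RingHom.mul_def, RingHom.comp_apply, ih]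
    rfl

/-- **`FrobStr` from an everywhere locally periodic endomorphism of `Ft`** which is the
`p ^ f`-Frobenius on constants. -/
def frobStrOfRingHom (f : ℕ) (hf : 0 < f) (σ : Ft →+* Ft)
    (hσk : ∀ a : k, σ (algebraMap k Ft a) = algebraMap k Ft (a ^ (p ^ f)))
    (hper : ∀ x : Ft, IsPer σ x) : FrobStr p k Ft where
  f := f
  f_pos := hf
  σ := RingEquiv.ofBijective σ (bijective_of_isPer hper)
  σ_algebraMap := hσk
  exists_pow_fixed x := by
    obtain ⟨n, hn, hx⟩ := hper x
    exact ⟨n, hn, by rw [ofBijective_pow_apply, hx]⟩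

@[simp] theorem frobStrOfRingHom_f (f : ℕ) (hf : 0 < f) (σ : Ft →+* Ft)
    (hσk : ∀ a : k, σ (algebraMap k Ft a) = algebraMap k Ft (a ^ (p ^ f)))
    (hper : ∀ x : Ft, IsPer σ x) : (frobStrOfRingHom f hf σ hσk hper).f = f := rfl

@[simp] theorem frobStrOfRingHom_σ_apply (f : ℕ) (hf : 0 < f) (σ : Ft →+* Ft)
    (hσk : ∀ a : k, σ (algebraMap k Ft a) = algebraMap k Ft (a ^ (p ^ f)))
    (hper : ∀ x : Ft, IsPer σ x) (x : Ft) : (frobStrOfRingHom f hf σ hσk hper).σ x = σ x := rfl

variable {D : Type*} [CommRing D] [Algebra k D] [Algebra D Ft] [IsScalarTower k D Ft]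
  [IsFractionRing D Ft]

/-- the extension of an injective endomorphism of `D` to `Ft = Frac D`. -/
def fracExt (σD : D →+* D) (hinj : Function.Injective σD) : Ft →+* Ft :=
  IsFractionRing.lift (g := (algebraMap D Ft).comp σD)
    ((IsFractionRing.injective D Ft).comp hinj)

@[simp] theorem fracExt_algebraMap (σD : D →+* D) (hinj : Function.Injective σD) (x : D) :
    fracExt (Ft := Ft) σD hinj (algebraMap D Ft x) = algebraMap D Ft (σD x) := by
  rw [fracExt, IsFractionRing.lift_algebraMap]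
  rfl

theorem fracExt_pow_algebraMap (σD : D →+* D) (hinj : Function.Injective σD) (n : ℕ) (x : D) :
    (fracExt (Ft := Ft) σD hinj ^ n) (algebraMap D Ft x) = algebraMap D Ft ((σD ^ n) x) := by
  induction n generalizing x with
  | zero => simp
  | succ n ih =>
    rw [pow_succ, RingHom.mul_def, RingHom.comp_apply, fracExt_algebraMap, ih, pow_succ,
      RingHom.mul_def, RingHom.comp_apply]

theorem isPer_fracExt (σD : D →+* D) (hinj : Function.Injective σD)
    (hper : ∀ x : D, IsPer σD x) (z : Ft) : IsPer (fracExt (Ft := Ft) σD hinj) z := by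
  obtain ⟨a, b, _, rfl⟩ := IsFractionRing.div_surjective (A := D) z
  have key : ∀ x : D, IsPer (fracExt (Ft := Ft) σD hinj) (algebraMap D Ft x) := by
    intro x
    obtain ⟨n, hn, hx⟩ := hper x
    exact ⟨n, hn, by rw [fracExt_pow_algebraMap, hx]⟩
  exact (key a).div (key b)

/-- **GENERIC CONSTRUCTOR.** `D` a domain with `Frac D = Ft`, `σD : D →+* D` which is the
`p ^ f`-Frobenius on the constants `k` (locally finite) and everywhere locally periodic (e.g. it
fixes a generating set of `D / k`, `isPer_of_adjoin_eq_top`).  Then `Ft` carries a `FrobStr`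
whose `σ` extends `σD`. -/
def frobStrOfFraction (f : ℕ) (hf : 0 < f) (σD : D →+* D)
    (hσk : ∀ a : k, σD (algebraMap k D a) = algebraMap k D (a ^ (p ^ f)))
    (hper : ∀ x : D, IsPer σD x) : FrobStr p k Ft :=
  frobStrOfRingHom f hf (fracExt (Ft := Ft) σD (bijective_of_isPer hper).1)
    (fun a => by
      rw [IsScalarTower.algebraMap_apply k D Ft, fracExt_algebraMap, hσk,
        ← IsScalarTower.algebraMap_apply k D Ft])
    (isPer_fracExt σD _ hper)

@[simp] theorem frobStrOfFraction_f (f : ℕ) (hf : 0 < f) (σD : D →+* D)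
    (hσk : ∀ a : k, σD (algebraMap k D a) = algebraMap k D (a ^ (p ^ f)))
    (hper : ∀ x : D, IsPer σD x) :
    (frobStrOfFraction (Ft := Ft) f hf σD hσk hper).f = f := rfl

@[simp] theorem frobStrOfFraction_σ_algebraMap (f : ℕ) (hf : 0 < f) (σD : D →+* D)
    (hσk : ∀ a : k, σD (algebraMap k D a) = algebraMap k D (a ^ (p ^ f)))
    (hper : ∀ x : D, IsPer σD x) (x : D) :
    (frobStrOfFraction (Ft := Ft) f hf σD hσk hper).σ (algebraMap D Ft x)
      = algebraMap D Ft (σD x) :=
  fracExt_algebraMap σD (bijective_of_isPer hper).1 x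

/-- the `σ` of the generic constructor fixes the image of every `σD`-fixed element. -/
theorem frobStrOfFraction_σ_fixed (f : ℕ) (hf : 0 < f) (σD : D →+* D)
    (hσk : ∀ a : k, σD (algebraMap k D a) = algebraMap k D (a ^ (p ^ f)))
    (hper : ∀ x : D, IsPer σD x) {x : D} (hx : σD x = x) :
    (frobStrOfFraction (Ft := Ft) f hf σD hσk hper).σ (algebraMap D Ft x)
      = algebraMap D Ft x := by
  rw [frobStrOfFraction_σ_algebraMap, hx]

end Constructor

/-! ### (D) the plane model `D = AdjoinRoot Pt`, `Pt : k[X][Y]` -/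

section AdjoinRootInst

variable {k : Type*} [Field k]

/-- the coefficientwise endomorphism of `k[X][Y]/(Pt)` induced by `φ : k →+* k` fixing `Pt`. -/
def sigmaAR (φ : k →+* k) (Pt : Polynomial (Polynomial k)) (hPt : Pt.map (mapRingHom φ) = Pt) :
    AdjoinRoot Pt →+* AdjoinRoot Pt :=
  AdjoinRoot.lift ((AdjoinRoot.of Pt).comp (mapRingHom φ)) (AdjoinRoot.root Pt) (by
    rw [← Polynomial.eval₂_map, hPt, AdjoinRoot.eval₂_root])

variable (φ : k →+* k) (Pt : Polynomial (Polynomial k)) (hPt : Pt.map (mapRingHom φ) = Pt)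

@[simp] theorem sigmaAR_of (x : Polynomial k) :
    sigmaAR φ Pt hPt (AdjoinRoot.of Pt x) = AdjoinRoot.of Pt (x.map φ) := by
  rw [sigmaAR, AdjoinRoot.lift_of]
  rfl

@[simp] theorem sigmaAR_root :
    sigmaAR φ Pt hPt (AdjoinRoot.root Pt) = AdjoinRoot.root Pt := by
  rw [sigmaAR, AdjoinRoot.lift_root]

@[simp] theorem sigmaAR_of_X :
    sigmaAR φ Pt hPt (AdjoinRoot.of Pt X) = AdjoinRoot.of Pt X := by
  rw [sigmaAR_of, Polynomial.map_X]

theorem algebraMap_eq_of_C (a : k) :
    algebraMap k (AdjoinRoot Pt) a = AdjoinRoot.of Pt (C a) := by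
  rw [AdjoinRoot.algebraMap_eq']
  rfl

@[simp] theorem sigmaAR_algebraMap (a : k) :
    sigmaAR φ Pt hPt (algebraMap k (AdjoinRoot Pt) a) = algebraMap k (AdjoinRoot Pt) (φ a) := by
  rw [algebraMap_eq_of_C, algebraMap_eq_of_C, sigmaAR_of, Polynomial.map_C]

theorem sigmaAR_mk (g : Polynomial (Polynomial k)) :
    sigmaAR φ Pt hPt (AdjoinRoot.mk Pt g) = AdjoinRoot.mk Pt (g.map (mapRingHom φ)) := by
  induction g using Polynomial.induction_on' with
  | add a b ha hb => rw [map_add, map_add, ha, hb, Polynomial.map_add, map_add]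
  | monomial n c =>
    rw [← C_mul_X_pow_eq_monomial, map_mul, map_pow, AdjoinRoot.mk_C, AdjoinRoot.mk_X, map_mul,
      map_pow, sigmaAR_of, sigmaAR_root, Polynomial.map_mul, Polynomial.map_pow, Polynomial.map_C,
      Polynomial.map_X, map_mul, map_pow, AdjoinRoot.mk_C, AdjoinRoot.mk_X]
    rfl

/-- `k[X][Y]/(Pt)` is generated over `k` by the classes of `X` and `Y`. -/
theorem adjoin_of_X_root_eq_top :
    Algebra.adjoin k ({AdjoinRoot.of Pt X, AdjoinRoot.root Pt} : Set (AdjoinRoot Pt)) = ⊤ := by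
  set S : Set (AdjoinRoot Pt) := {AdjoinRoot.of Pt X, AdjoinRoot.root Pt} with hS
  have hX : AdjoinRoot.of Pt X ∈ Algebra.adjoin k S := Algebra.subset_adjoin (by simp [hS])
  have hY : AdjoinRoot.root Pt ∈ Algebra.adjoin k S := Algebra.subset_adjoin (by simp [hS])
  have hof : ∀ c : Polynomial k, AdjoinRoot.of Pt c ∈ Algebra.adjoin k S := by
    intro c
    induction c using Polynomial.induction_on' with
    | add a b ha hb => rw [map_add]; exact add_mem ha hb
    | monomial n a =>
      rw [← C_mul_X_pow_eq_monomial, map_mul, map_pow, ← algebraMap_eq_of_C]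
      exact mul_mem (Subalgebra.algebraMap_mem _ a) (pow_mem hX n)
  have hmk : ∀ g : Polynomial (Polynomial k), AdjoinRoot.mk Pt g ∈ Algebra.adjoin k S := by
    intro g
    induction g using Polynomial.induction_on' with
    | add a b ha hb => rw [map_add]; exact add_mem ha hb
    | monomial n c =>
      rw [← C_mul_X_pow_eq_monomial, map_mul, map_pow, AdjoinRoot.mk_C, AdjoinRoot.mk_X]
      exact mul_mem (hof c) (pow_mem hY n)
  rw [eq_top_iff]
  intro x _
  induction x using AdjoinRoot.induction_on with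
  | ih g => exact hmk g

/-- coefficients fixed by `φ` ⟹ `Pt` is fixed by the coefficientwise `φ`. -/
theorem map_mapRingHom_eq_self_of_coeff
    (hcoef : ∀ i j : ℕ, φ ((Pt.coeff i).coeff j) = (Pt.coeff i).coeff j) :
    Pt.map (mapRingHom φ) = Pt := by
  ext i j
  rw [Polynomial.coeff_map, coe_mapRingHom, Polynomial.coeff_map, hcoef]

variable {p : ℕ} {f : ℕ}

/-- every element of the plane model is locally periodic for the coefficientwise `q`-Frobenius. -/
theorem isPer_sigmaAR (hk : ∀ a : k, ∃ n : ℕ, 0 < n ∧ a ^ (p ^ n) = a)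
    (hφ : ∀ a : k, φ a = a ^ (p ^ f)) (x : AdjoinRoot Pt) : IsPer (sigmaAR φ Pt hPt) x :=
  isPer_of_adjoin_eq_top (p := p) (f := f) hk
    (fun a => by rw [sigmaAR_algebraMap, hφ]) _ (adjoin_of_X_root_eq_top Pt)
    (by
      intro s hs
      rcases hs with rfl | hs
      · exact sigmaAR_of_X φ Pt hPt
      · rw [Set.mem_singleton_iff] at hs
        rw [hs]
        exact sigmaAR_root φ Pt hPt) x

variable {Ft : Type*} [Field Ft] [Algebra k Ft] [Algebra (AdjoinRoot Pt) Ft]
  [IsScalarTower k (AdjoinRoot Pt) Ft] [IsFractionRing (AdjoinRoot Pt) Ft]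

/-- **The Frobenius structure of the plane model**: `Ft = Frac (k[X][Y]/(Pt))`, `k` locally finite
of characteristic `p`, the coefficients of `Pt` fixed by `φ = (a ↦ a ^ (p ^ f))`. -/
def frobStrAdjoinRoot (hf : 0 < f) (hk : ∀ a : k, ∃ n : ℕ, 0 < n ∧ a ^ (p ^ n) = a)
    (hφ : ∀ a : k, φ a = a ^ (p ^ f)) : FrobStr p k Ft :=
  frobStrOfFraction (D := AdjoinRoot Pt) f hf (sigmaAR φ Pt hPt)
    (fun a => by rw [sigmaAR_algebraMap, hφ]) (isPer_sigmaAR φ Pt hPt hk hφ)

@[simp] theorem frobStrAdjoinRoot_f (hf : 0 < f)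
    (hk : ∀ a : k, ∃ n : ℕ, 0 < n ∧ a ^ (p ^ n) = a) (hφ : ∀ a : k, φ a = a ^ (p ^ f)) :
    (frobStrAdjoinRoot (Ft := Ft) φ Pt hPt hf hk hφ).f = f := rfl

/-- the Frobenius fixes the class of `X` (`= red t`). -/
theorem frobStrAdjoinRoot_σ_X (hf : 0 < f)
    (hk : ∀ a : k, ∃ n : ℕ, 0 < n ∧ a ^ (p ^ n) = a) (hφ : ∀ a : k, φ a = a ^ (p ^ f)) :
    (frobStrAdjoinRoot (Ft := Ft) φ Pt hPt hf hk hφ).σ
        (algebraMap (AdjoinRoot Pt) Ft (AdjoinRoot.of Pt X))
      = algebraMap (AdjoinRoot Pt) Ft (AdjoinRoot.of Pt X) :=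
  frobStrOfFraction_σ_fixed f hf _ _ _ (sigmaAR_of_X φ Pt hPt)

/-- the Frobenius fixes the class of `Y` (`= red y`). -/
theorem frobStrAdjoinRoot_σ_root (hf : 0 < f)
    (hk : ∀ a : k, ∃ n : ℕ, 0 < n ∧ a ^ (p ^ n) = a) (hφ : ∀ a : k, φ a = a ^ (p ^ f)) :
    (frobStrAdjoinRoot (Ft := Ft) φ Pt hPt hf hk hφ).σ
        (algebraMap (AdjoinRoot Pt) Ft (AdjoinRoot.root Pt))
      = algebraMap (AdjoinRoot Pt) Ft (AdjoinRoot.root Pt) :=
  frobStrOfFraction_σ_fixed f hf _ _ _ (sigmaAR_root φ Pt hPt)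

/-- the Frobenius acts on the class of any `g ∈ k[X][Y]` coefficientwise. -/
theorem frobStrAdjoinRoot_σ_mk (hf : 0 < f)
    (hk : ∀ a : k, ∃ n : ℕ, 0 < n ∧ a ^ (p ^ n) = a) (hφ : ∀ a : k, φ a = a ^ (p ^ f))
    (g : Polynomial (Polynomial k)) :
    (frobStrAdjoinRoot (Ft := Ft) φ Pt hPt hf hk hφ).σ
        (algebraMap (AdjoinRoot Pt) Ft (AdjoinRoot.mk Pt g))
      = algebraMap (AdjoinRoot Pt) Ft (AdjoinRoot.mk Pt (g.map (mapRingHom φ))) := by
  rw [frobStrAdjoinRoot, frobStrOfFraction_σ_algebraMap, sigmaAR_mk]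

end AdjoinRootInst

end Fermat.Agent.GJ27.Red.Frob
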