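/-
GATE-J27 (S27) / node B3 = GJ27-RED, second seat (helper27): the SPECIAL-FIBRE half of the plane
model.  Mathlib + `S24/Gen` only.

`k` a field, `Pt ∈ k[X][Y]` monic of degree `n ≥ 1` in `Y`, `D := AdjoinRoot Pt = k[X][Y]/(Pt)`,
`Ft` ANY fraction field of `D` (frame of `GJ27/Red/Frob.lean : frobStrAdjoinRoot` verbatim),
`xbar`, `ybar` the classes of `X`, `Y` in `Ft`.

* `irreducible_of_eisenstein`, `prime_of_eisenstein`, `isDomain_of_eisenstein` :
      `Pt` Eisenstein at `(X)` ⟹ `Pt` irreducible / prime, `AdjoinRoot Pt` a domain;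
* `mk_eq_zero_of_degree_lt` : a polynomial of `Y`-degree `< n` vanishing in `D` is zero;
* `transcendental_xbar`     : `xbar` is transcendental over `k`;
* `adjoin_ybar_eq_top`      : `k(xbar)(ybar) = Ft`;
* `finrank_eq`              : `[Ft : k(xbar)] = n`;
* `isGen_xbar`              : `IsGen k xbar`;
* `isSeparable`             : a Bezout certificate `U·Pt + V·∂_Y Pt = δ(X) ≠ 0` makes `Ft / k(xbar)`
                              separable.
-/
import Mathlib
import Fermat.Agent.S24.Gen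

set_option autoImplicit false
set_option linter.unusedSectionVars false

noncomputable section

open Polynomial IntermediateField
open scoped Polynomial.Bivariate

namespace Fermat.Agent.GJ27.Red.ModelFt

open Fermat.Agent.S24

variable {k : Type*} [Field k]

/-! ### Eisenstein -/

/-- **(E1)** a monic polynomial of `k[X][Y]`, Eisenstein at `(X)`, is irreducible. -/
theorem irreducible_of_eisenstein {Pt : k[X][Y]} (hm : Pt.Monic) (hn : 0 < Pt.natDegree)
    (hdvd : ∀ i, i < Pt.natDegree → (X : k[X]) ∣ Pt.coeff i)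
    (hsq : ¬ (X : k[X]) ^ 2 ∣ Pt.coeff 0) : Irreducible Pt := by
  have hP : (Ideal.span {(X : k[X])}).IsPrime := by
    rw [Ideal.span_singleton_prime X_ne_zero]
    exact prime_X
  refine Polynomial.irreducible_of_eisenstein_criterion hP ?_ ?_ ?_ ?_ hm.isPrimitive
  · rw [hm.leadingCoeff, Ideal.mem_span_singleton]
    exact fun h => not_isUnit_X (isUnit_of_dvd_one h)
  · intro i hi
    rw [Ideal.mem_span_singleton]
    exact hdvd i (Polynomial.coe_lt_degree.mp hi)
  · exact Polynomial.natDegree_pos_iff_degree_pos.mp hn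
  · rw [Ideal.span_singleton_pow, Ideal.mem_span_singleton]
    exact hsq

theorem prime_of_eisenstein {Pt : k[X][Y]} (hm : Pt.Monic) (hn : 0 < Pt.natDegree)
    (hdvd : ∀ i, i < Pt.natDegree → (X : k[X]) ∣ Pt.coeff i)
    (hsq : ¬ (X : k[X]) ^ 2 ∣ Pt.coeff 0) : Prime Pt :=
  (irreducible_of_eisenstein hm hn hdvd hsq).prime

theorem isDomain_of_eisenstein {Pt : k[X][Y]} (hm : Pt.Monic) (hn : 0 < Pt.natDegree)
    (hdvd : ∀ i, i < Pt.natDegree → (X : k[X]) ∣ Pt.coeff i)
    (hsq : ¬ (X : k[X]) ^ 2 ∣ Pt.coeff 0) : IsDomain (AdjoinRoot Pt) :=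
  AdjoinRoot.isDomain_of_prime (prime_of_eisenstein hm hn hdvd hsq)

/-! ### small degree -/

/-- **(E2)** a polynomial of `Y`-degree `< deg Pt` which vanishes in `k[X][Y]/(Pt)` is zero. -/
theorem mk_eq_zero_of_degree_lt {Pt G : k[X][Y]} (hlt : G.degree < Pt.degree)
    (h : AdjoinRoot.mk Pt G = 0) : G = 0 :=
  Polynomial.eq_zero_of_dvd_of_degree_lt (AdjoinRoot.mk_eq_zero.mp h) hlt

theorem mk_eq_zero_of_natDegree_lt {Pt G : k[X][Y]} (hlt : G.natDegree < Pt.natDegree)
    (h : AdjoinRoot.mk Pt G = 0) : G = 0 :=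
  mk_eq_zero_of_degree_lt (Polynomial.degree_lt_degree hlt) h

theorem of_injective {Pt : k[X][Y]} (hn : 0 < Pt.natDegree) :
    Function.Injective (AdjoinRoot.of Pt) := by
  rw [injective_iff_map_eq_zero]
  intro a ha
  have h1 : AdjoinRoot.mk Pt (C a) = 0 := by rw [AdjoinRoot.mk_C]; exact ha
  have h2 := mk_eq_zero_of_natDegree_lt (by rw [natDegree_C]; exact hn) h1
  exact C_eq_zero.mp h2

/-! ### the fraction field -/

section Frac

variable (Pt : k[X][Y]) (Ft : Type*) [Field Ft] [Algebra k Ft] [Algebra (AdjoinRoot Pt) Ft]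
  [IsScalarTower k (AdjoinRoot Pt) Ft] [IsFractionRing (AdjoinRoot Pt) Ft]

/-- the class of `X` in the fraction field. -/
def xbar : Ft := algebraMap (AdjoinRoot Pt) Ft (AdjoinRoot.of Pt X)

/-- the class of `Y` in the fraction field. -/
def ybar : Ft := algebraMap (AdjoinRoot Pt) Ft (AdjoinRoot.root Pt)

theorem xbar_def : xbar Pt Ft = algebraMap (AdjoinRoot Pt) Ft (AdjoinRoot.of Pt X) := rfl

theorem ybar_def : ybar Pt Ft = algebraMap (AdjoinRoot Pt) Ft (AdjoinRoot.root Pt) := rfl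

/-- `a(xbar)` is the class of `a ∈ k[X]`. -/
theorem aeval_xbar (a : k[X]) :
    aeval (xbar Pt Ft) a = algebraMap (AdjoinRoot Pt) Ft (AdjoinRoot.of Pt a) := by
  rw [xbar, aeval_algebraMap_apply, ← AdjoinRoot.algebraMap_eq, aeval_algebraMap_apply,
    aeval_X_left_apply]

variable {Pt}

/-- **(E3)** `xbar` is transcendental over `k`. -/
theorem transcendental_xbar (hn : 0 < Pt.natDegree) : Transcendental k (xbar Pt Ft) := by
  rw [transcendental_iff]
  intro a ha
  rw [aeval_xbar] at ha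
  have h1 : AdjoinRoot.of Pt a = 0 :=
    IsFractionRing.injective (AdjoinRoot Pt) Ft (by rw [ha, map_zero])
  exact of_injective hn (by rw [h1, map_zero])

variable (Pt)

/-- the coefficient map `k[X] → k(xbar)`. -/
def toL : k[X] →+* k⟮xbar Pt Ft⟯ := (aeval (AdjoinSimple.gen k (xbar Pt Ft))).toRingHom

theorem algebraMap_toL (a : k[X]) :
    algebraMap k⟮xbar Pt Ft⟯ Ft (toL Pt Ft a) = aeval (xbar Pt Ft) a := by
  show algebraMap k⟮xbar Pt Ft⟯ Ft (aeval (AdjoinSimple.gen k (xbar Pt Ft)) a) = _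
  rw [← aeval_algebraMap_apply, AdjoinSimple.algebraMap_gen]

variable {Pt}

theorem toL_injective (hn : 0 < Pt.natDegree) : Function.Injective (toL Pt Ft) := by
  rw [injective_iff_map_eq_zero]
  intro a ha
  have h1 : aeval (xbar Pt Ft) a = 0 := by rw [← algebraMap_toL, ha, map_zero]
  exact (transcendental_iff.mp (transcendental_xbar Ft hn)) a h1

variable (Pt)

/-- evaluation at `(xbar, ybar)` of a polynomial with coefficients in `k[X]`. -/
theorem eval₂_map_toL (G : k[X][Y]) :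
    eval₂ (algebraMap k⟮xbar Pt Ft⟯ Ft) (ybar Pt Ft) (G.map (toL Pt Ft)) =
      algebraMap (AdjoinRoot Pt) Ft (AdjoinRoot.mk Pt G) := by
  rw [eval₂_map, ← AdjoinRoot.aeval_eq, aeval_def, hom_eval₂, ybar]
  congr 1
  refine RingHom.ext fun a => ?_
  rw [RingHom.comp_apply, RingHom.comp_apply, algebraMap_toL, aeval_xbar,
    AdjoinRoot.algebraMap_eq]

theorem aeval_ybar_map_toL (G : k[X][Y]) :
    aeval (ybar Pt Ft) (G.map (toL Pt Ft)) =
      algebraMap (AdjoinRoot Pt) Ft (AdjoinRoot.mk Pt G) := by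
  rw [aeval_def, eval₂_map_toL]

/-- `ybar` is a root of `Pt` over `k(xbar)`. -/
theorem aeval_ybar_self : aeval (ybar Pt Ft) (Pt.map (toL Pt Ft)) = 0 := by
  rw [aeval_ybar_map_toL, AdjoinRoot.mk_self, map_zero]

variable {Pt}

theorem isIntegral_ybar (hm : Pt.Monic) : IsIntegral k⟮xbar Pt Ft⟯ (ybar Pt Ft) :=
  ⟨Pt.map (toL Pt Ft), hm.map _, aeval_ybar_self Pt Ft⟩

/-- the image of `D` lies in `k(xbar)(ybar)`. -/
theorem algebraMap_mem_adjoin (d : AdjoinRoot Pt) :
    algebraMap (AdjoinRoot Pt) Ft d ∈ (k⟮xbar Pt Ft⟯)⟮ybar Pt Ft⟯ := by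
  induction d using AdjoinRoot.induction_on with
  | ih G =>
    rw [← aeval_ybar_map_toL]
    have h1 : aeval (ybar Pt Ft) (G.map (toL Pt Ft)) ∈
        Algebra.adjoin k⟮xbar Pt Ft⟯ {ybar Pt Ft} := aeval_mem_adjoin_singleton _ _
    exact algebra_adjoin_le_adjoin _ _ h1

/-- **(E4a)** `k(xbar)(ybar) = Ft`. -/
theorem adjoin_ybar_eq_top : (k⟮xbar Pt Ft⟯)⟮ybar Pt Ft⟯ = ⊤ := by
  rw [eq_top_iff]
  intro z _
  obtain ⟨a, b, -, rfl⟩ := IsFractionRing.div_surjective (A := AdjoinRoot Pt) z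
  exact div_mem (algebraMap_mem_adjoin Ft a) (algebraMap_mem_adjoin Ft b)

/-- clearing denominators of a polynomial over `k(xbar)`. -/
theorem exists_clear_denominators (hn : 0 < Pt.natDegree) (q : (k⟮xbar Pt Ft⟯)[X]) :
    ∃ (b : k[X]) (G : k[X][Y]), b ≠ 0 ∧
      G.map (toL Pt Ft) = C (toL Pt Ft b) * q := by
  induction q using Polynomial.induction_on' with
  | add p q hp hq =>
    obtain ⟨b1, G1, hb1, h1⟩ := hp
    obtain ⟨b2, G2, hb2, h2⟩ := hq
    refine ⟨b1 * b2, C b2 * G1 + C b1 * G2, mul_ne_zero hb1 hb2, ?_⟩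
    rw [Polynomial.map_add, Polynomial.map_mul, Polynomial.map_mul, Polynomial.map_C,
      Polynomial.map_C, h1, h2, map_mul, C_mul]
    ring
  | monomial n z =>
    obtain ⟨r, s, hz⟩ := (mem_adjoin_simple_iff k (z : Ft)).mp z.2
    by_cases hs : s = 0
    · refine ⟨1, 0, one_ne_zero, ?_⟩
      have hz0 : z = 0 := by
        apply Subtype.ext
        rw [hz, hs, map_zero, div_zero]
        rfl
      rw [hz0, Polynomial.map_zero, monomial_zero_right, mul_zero]
    · refine ⟨s, monomial n r, hs, ?_⟩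
      rw [Polynomial.map_monomial, C_mul_monomial]
      congr 1
      apply (algebraMap k⟮xbar Pt Ft⟯ Ft).injective
      have hs' : aeval (xbar Pt Ft) s ≠ 0 := fun h =>
        hs ((transcendental_iff.mp (transcendental_xbar Ft hn)) s h)
      rw [map_mul, algebraMap_toL, algebraMap_toL]
      show aeval (xbar Pt Ft) r = aeval (xbar Pt Ft) s * (z : Ft)
      rw [hz, mul_div_cancel₀ _ hs']

/-- the minimal polynomial of `ybar` over `k(xbar)` has degree `n`. -/
theorem natDegree_minpoly (hm : Pt.Monic) (hn : 0 < Pt.natDegree) :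
    (minpoly k⟮xbar Pt Ft⟯ (ybar Pt Ft)).natDegree = Pt.natDegree := by
  have hint := isIntegral_ybar Ft hm
  have hdvd : minpoly k⟮xbar Pt Ft⟯ (ybar Pt Ft) ∣ Pt.map (toL Pt Ft) :=
    minpoly.dvd _ _ (aeval_ybar_self Pt Ft)
  have hmap : (Pt.map (toL Pt Ft)).natDegree = Pt.natDegree :=
    hm.natDegree_map _
  refine le_antisymm ?_ ?_
  · rw [← hmap]
    exact natDegree_le_of_dvd hdvd (hm.map _).ne_zero
  · by_contra hlt
    rw [not_le] at hlt
    obtain ⟨b, G, hb, hG⟩ := exists_clear_denominators Ft hn (minpoly k⟮xbar Pt Ft⟯ (ybar Pt Ft))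
    have hinj : Function.Injective (toL Pt Ft) := toL_injective Ft hn
    have hb' : toL Pt Ft b ≠ 0 := fun h => hb (toL_injective Ft hn (by rw [h, map_zero]))
    have hdeg : G.natDegree = (minpoly k⟮xbar Pt Ft⟯ (ybar Pt Ft)).natDegree := by
      rw [← natDegree_map_eq_of_injective hinj G, hG, natDegree_C_mul hb']
    have h0 : algebraMap (AdjoinRoot Pt) Ft (AdjoinRoot.mk Pt G) = 0 := by
      rw [← aeval_ybar_map_toL, hG, map_mul, minpoly.aeval, mul_zero]
    have h1 : AdjoinRoot.mk Pt G = 0 :=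
      IsFractionRing.injective (AdjoinRoot Pt) Ft (by rw [h0, map_zero])
    have h2 : G = 0 := mk_eq_zero_of_natDegree_lt (by rw [hdeg]; exact hlt) h1
    rw [h2, Polynomial.map_zero] at hG
    have := mul_eq_zero.mp hG.symm
    rcases this with h | h
    · exact hb' (C_eq_zero.mp h)
    · exact minpoly.ne_zero hint h

/-- the minimal polynomial of `ybar` over `k(xbar)` is `Pt`. -/
theorem minpoly_ybar (hm : Pt.Monic) (hn : 0 < Pt.natDegree) :
    minpoly k⟮xbar Pt Ft⟯ (ybar Pt Ft) = Pt.map (toL Pt Ft) := by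
  have hint := isIntegral_ybar Ft hm
  have hdvd : minpoly k⟮xbar Pt Ft⟯ (ybar Pt Ft) ∣ Pt.map (toL Pt Ft) :=
    minpoly.dvd _ _ (aeval_ybar_self Pt Ft)
  refine (Polynomial.eq_of_monic_of_dvd_of_natDegree_le (minpoly.monic hint) (hm.map _) hdvd
    ?_).symm
  rw [natDegree_minpoly Ft hm hn, hm.natDegree_map]

/-- **(E4)** `[Ft : k(xbar)] = deg_Y Pt`. -/
theorem finrank_eq (hm : Pt.Monic) (hn : 0 < Pt.natDegree) :
    Module.finrank k⟮xbar Pt Ft⟯ Ft = Pt.natDegree := by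
  rw [← IntermediateField.finrank_top', ← adjoin_ybar_eq_top Ft,
    IntermediateField.adjoin.finrank (isIntegral_ybar Ft hm), natDegree_minpoly Ft hm hn]

theorem finiteDimensional (hm : Pt.Monic) (hn : 0 < Pt.natDegree) :
    FiniteDimensional k⟮xbar Pt Ft⟯ Ft :=
  Module.finite_of_finrank_pos (by rw [finrank_eq Ft hm hn]; exact hn)

/-- **(E4b)** `xbar` is a generator of `Ft / k`. -/
theorem isGen_xbar (hm : Pt.Monic) (hn : 0 < Pt.natDegree) : IsGen k (xbar Pt Ft) :=
  ⟨transcendental_xbar Ft hn, finiteDimensional Ft hm hn⟩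

/-- **(E5)** a Bezout certificate `U·Pt + V·∂_Y Pt = δ(X) ≠ 0` makes `Ft / k(xbar)` separable. -/
theorem isSeparable (hm : Pt.Monic) (hn : 0 < Pt.natDegree) {U V : k[X][Y]} {δ : k[X]}
    (hδ : δ ≠ 0) (hbez : U * Pt + V * derivative Pt = C δ) :
    Algebra.IsSeparable k⟮xbar Pt Ft⟯ Ft := by
  set φ : k[X] →+* k⟮xbar Pt Ft⟯ := toL Pt Ft with hφ
  have hδ' : φ δ ≠ 0 := fun h => hδ (toL_injective Ft hn (by rw [map_zero]; exact h))
  have hsepP : (Pt.map φ).Separable := by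
    have h1 := congrArg (Polynomial.map φ) hbez
    rw [Polynomial.map_add, Polynomial.map_mul, Polynomial.map_mul, Polynomial.map_C,
      ← Polynomial.derivative_map] at h1
    refine ⟨C (φ δ)⁻¹ * U.map φ, C (φ δ)⁻¹ * V.map φ, ?_⟩
    calc C (φ δ)⁻¹ * U.map φ * Pt.map φ + C (φ δ)⁻¹ * V.map φ * derivative (Pt.map φ)
        = C (φ δ)⁻¹ * (U.map φ * Pt.map φ + V.map φ * derivative (Pt.map φ)) := by ring
      _ = 1 := by rw [h1, ← C_mul, inv_mul_cancel₀ hδ', C_1]
  have hsep : IsSeparable k⟮xbar Pt Ft⟯ (ybar Pt Ft) := by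
    rw [IsSeparable, minpoly_ybar Ft hm hn]
    exact hsepP
  have hS : Algebra.IsSeparable k⟮xbar Pt Ft⟯ (k⟮xbar Pt Ft⟯)⟮ybar Pt Ft⟯ :=
    (isSeparable_adjoin_simple_iff_isSeparable _ _).mpr hsep
  refine ⟨fun z => ?_⟩
  have hz : z ∈ (k⟮xbar Pt Ft⟯)⟮ybar Pt Ft⟯ := by rw [adjoin_ybar_eq_top]; trivial
  exact isSeparable_of_mem_isSeparable _ _ hz

/-! ### consumer forms: any element `x` with `x = xbar` (e.g. `x = R.red ⟨t, ht⟩`) -/

theorem transcendental_of_eq (hn : 0 < Pt.natDegree) {x : Ft} (hx : x = xbar Pt Ft) :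
    Transcendental k x := by
  subst hx
  exact transcendental_xbar Ft hn

theorem finrank_of_eq (hm : Pt.Monic) (hn : 0 < Pt.natDegree) {x : Ft} (hx : x = xbar Pt Ft) :
    Module.finrank k⟮x⟯ Ft = Pt.natDegree := by
  subst hx
  exact finrank_eq Ft hm hn

theorem isGen_of_eq (hm : Pt.Monic) (hn : 0 < Pt.natDegree) {x : Ft} (hx : x = xbar Pt Ft) :
    IsGen k x := by
  subst hx
  exact isGen_xbar Ft hm hn

theorem isSeparable_of_eq (hm : Pt.Monic) (hn : 0 < Pt.natDegree) {U V : k[X][Y]} {δ : k[X]}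
    (hδ : δ ≠ 0) (hbez : U * Pt + V * derivative Pt = C δ) {x : Ft} (hx : x = xbar Pt Ft) :
    Algebra.IsSeparable k⟮x⟯ Ft := by
  subst hx
  exact isSeparable Ft hm hn hδ hbez

end Frac

end Fermat.Agent.GJ27.Red.ModelFt
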