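/-
GATE-J27 (S27) / node B3 = GJ27-RED, file 2a (helper82): two-variable polynomials over a valued
field — evaluation at a point of an extension, the inclusion `A[X][Y] → K[X][Y]`, the reduction
`A[X][Y] → k[X][Y]`, and the CONTENT lemma (rank-free): every nonzero `G ∈ K[X][Y]` is
`c · G₀` with `c ∈ Kˣ` and `G₀ ∈ A[X][Y]` having a coefficient equal to `1`.  Mathlib only.
-/
import Mathlib

set_option autoImplicit false

noncomputable section

namespace Fermat.Agent.GJ27.Red

open Polynomial

section Eval

variable (K : Type*) {F : Type*} [Field K] [Field F] [Algebra K F]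

/-- evaluation of a two-variable polynomial `G(X, Y)` (inner variable `X`, outer variable `Y`) at
the point `(t, y)` of `F`. -/
def evK (t y : F) : Polynomial (Polynomial K) →+* F :=
  Polynomial.eval₂RingHom ((Polynomial.aeval t : Polynomial K →ₐ[K] F) : Polynomial K →+* F) y

variable {K}

@[simp] theorem evK_C (t y : F) (g : Polynomial K) : evK K t y (C g) = aeval t g := by
  simp [evK]

@[simp] theorem evK_X (t y : F) : evK K t y X = y := by
  simp [evK]

theorem evK_C_C (t y : F) (c : K) : evK K t y (C (C c)) = algebraMap K F c := by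
  simp

theorem evK_C_X (t y : F) : evK K t y (C X) = t := by
  simp

end Eval

section Incl

variable {K : Type*} [Field K] (A : ValuationSubring K)

/-- the inclusion `A[X][Y] → K[X][Y]`. -/
def incl2 : Polynomial (Polynomial A) →+* Polynomial (Polynomial K) :=
  Polynomial.mapRingHom (Polynomial.mapRingHom A.subtype)

theorem incl2_injective : Function.Injective (incl2 A) := by
  apply Polynomial.map_injective
  apply Polynomial.map_injective
  exact Subtype.val_injective

@[simp] theorem incl2_coeff_coeff (G : Polynomial (Polynomial A)) (j i : ℕ) :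
    ((incl2 A G).coeff j).coeff i = (((G.coeff j).coeff i : A) : K) := by
  simp [incl2, Polynomial.coeff_map]

theorem natDegree_incl2 (G : Polynomial (Polynomial A)) :
    (incl2 A G).natDegree = G.natDegree := by
  apply Polynomial.natDegree_map_eq_of_injective
  apply Polynomial.map_injective
  exact Subtype.val_injective

@[simp] theorem incl2_C_C (a : A) : incl2 A (C (C a)) = C (C (a : K)) := by
  simp [incl2]

variable {k : Type*} [Field k] (res : A →+* k)

/-- the reduction `A[X][Y] → k[X][Y]`. -/
def red2 : Polynomial (Polynomial A) →+* Polynomial (Polynomial k) :=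
  Polynomial.mapRingHom (Polynomial.mapRingHom res)

@[simp] theorem red2_coeff_coeff (G : Polynomial (Polynomial A)) (j i : ℕ) :
    ((red2 A res G).coeff j).coeff i = res ((G.coeff j).coeff i) := by
  simp [red2, Polynomial.coeff_map]

theorem red2_surjective (hres : Function.Surjective res) : Function.Surjective (red2 A res) := by
  apply Polynomial.map_surjective
  apply Polynomial.map_surjective
  exact hres

theorem natDegree_red2_le (G : Polynomial (Polynomial A)) :
    (red2 A res G).natDegree ≤ G.natDegree :=
  Polynomial.natDegree_map_le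

@[simp] theorem red2_C_C (a : A) : red2 A res (C (C a)) = C (C (res a)) := by
  simp [red2]

@[simp] theorem red2_C_X : red2 A res (C X) = C X := by
  simp [red2]

@[simp] theorem red2_X : red2 A res X = X := by
  simp [red2]

/-- a polynomial with a coefficient `1` has nonzero reduction. -/
theorem red2_ne_zero_of_coeff_eq_one {G : Polynomial (Polynomial A)} {j i : ℕ}
    (h : (G.coeff j).coeff i = 1) : red2 A res G ≠ 0 := by
  intro h0
  have h1 : ((red2 A res G).coeff j).coeff i = 0 := by rw [h0]; simp
  rw [red2_coeff_coeff, h, map_one] at h1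
  exact one_ne_zero h1

end Incl

section Content

variable {K : Type*} [Field K] (A : ValuationSubring K)

/-- a two-variable polynomial over `K` all of whose coefficients lie in `A` comes from `A[X][Y]`. -/
theorem exists_incl2_eq (H : Polynomial (Polynomial K))
    (h : ∀ j i, (H.coeff j).coeff i ∈ A) : ∃ G₀ : Polynomial (Polynomial A), incl2 A G₀ = H := by
  have h1 : H ∈ Polynomial.lifts (Polynomial.mapRingHom A.subtype) := by
    rw [Polynomial.lifts_iff_coeff_lifts]
    intro j
    have h2 : H.coeff j ∈ Polynomial.lifts A.subtype := by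
      rw [Polynomial.lifts_iff_coeff_lifts]
      intro i
      exact ⟨⟨_, h j i⟩, rfl⟩
    obtain ⟨q, hq⟩ := (Polynomial.mem_lifts _).1 h2
    exact ⟨q, hq⟩
  obtain ⟨G₀, hG₀⟩ := (Polynomial.mem_lifts _).1 h1
  exact ⟨G₀, hG₀⟩

/-- **the content lemma** (rank-free): a nonzero `G ∈ K[X][Y]` is `c · G₀` with `c ≠ 0` and
`G₀ ∈ A[X][Y]` with some coefficient equal to `1`. -/
theorem exists_content (G : Polynomial (Polynomial K)) (hG : G ≠ 0) :
    ∃ (c : K) (G₀ : Polynomial (Polynomial A)), c ≠ 0 ∧ G = C (C c) * incl2 A G₀ ∧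
      ∃ j i, (G₀.coeff j).coeff i = 1 := by
  classical
  -- the finite set of index pairs of nonzero coefficients
  let S : Finset (ℕ × ℕ) := G.support.biUnion fun j => (G.coeff j).support.image fun i => (j, i)
  have hS : ∀ p : ℕ × ℕ, p ∈ S ↔ (G.coeff p.1).coeff p.2 ≠ 0 := by
    rintro ⟨j, i⟩
    simp only [S, Finset.mem_biUnion, Finset.mem_image, Polynomial.mem_support_iff, Prod.mk.injEq]
    constructor
    · rintro ⟨j', -, i', hi', rfl, rfl⟩
      exact hi'
    · intro h
      refine ⟨j, ?_, i, h, rfl, rfl⟩
      intro h0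
      apply h
      rw [h0]
      simp
  have hne : S.Nonempty := by
    obtain ⟨j, hj⟩ : ∃ j, G.coeff j ≠ 0 := by
      by_contra hcon
      simp only [not_exists, ne_eq, not_not] at hcon
      exact hG (Polynomial.ext fun j => by rw [hcon j]; simp)
    obtain ⟨i, hi⟩ : ∃ i, (G.coeff j).coeff i ≠ 0 := by
      by_contra hcon
      simp only [not_exists, ne_eq, not_not] at hcon
      exact hj (Polynomial.ext fun i => by rw [hcon i]; simp)
    exact ⟨(j, i), (hS (j, i)).2 hi⟩
  obtain ⟨p₀, hp₀S, hp₀⟩ := Finset.exists_max_image S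
    (fun p => A.valuation ((G.coeff p.1).coeff p.2)) hne
  set c : K := (G.coeff p₀.1).coeff p₀.2 with hc
  have hc0 : c ≠ 0 := (hS p₀).1 hp₀S
  have hmem : ∀ j i, ((C (C c⁻¹) * G).coeff j).coeff i ∈ A := by
    intro j i
    rw [Polynomial.coeff_C_mul, Polynomial.coeff_C_mul]
    by_cases h0 : (G.coeff j).coeff i = 0
    · rw [h0, mul_zero]
      exact zero_mem _
    · have h1 := hp₀ (j, i) ((hS (j, i)).2 h0)
      rw [← ValuationSubring.valuation_le_one_iff, map_mul, map_inv₀]
      have hvc : A.valuation c ≠ 0 := by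
        rw [ne_eq, map_eq_zero]
        exact hc0
      rw [inv_mul_le_iff₀ (zero_lt_iff.mpr hvc), mul_one]
      exact h1
  obtain ⟨G₀, hG₀⟩ := exists_incl2_eq A _ hmem
  refine ⟨c, G₀, hc0, ?_, p₀.1, p₀.2, ?_⟩
  · rw [hG₀, ← mul_assoc, ← C_mul, ← C_mul, mul_inv_cancel₀ hc0, C_1, C_1, one_mul]
  · have h1 : (((G₀.coeff p₀.1).coeff p₀.2 : A) : K) = 1 := by
      rw [← incl2_coeff_coeff, hG₀, Polynomial.coeff_C_mul, Polynomial.coeff_C_mul, ← hc,
        inv_mul_cancel₀ hc0]
    exact Subtype.ext h1

end Content

end Fermat.Agent.GJ27.Red
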