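/-
GATE-J27 (S27) / node B3 = GJ27-RED, file 2b (helper82): the reduction datum of a PLANE MODEL.

Input `M : PlaneModel K F k` (hypothesis form; B1 + B2 of the design):
* `A` a valuation subring of `K` (any rank), `res : A ↠ k`;
* `t y : F` and `P ∈ A[X][Y]` monic in `Y` of degree `n ≥ 1` with `P(t, y) = 0`;
* `indep` : `1, y, …, y^(n-1)` are linearly independent over `K[t]` (and `t` is transcendental):
  a `G ∈ K[X][Y]` of `Y`-degree `< n` with `G(t, y) = 0` is zero;
* `gen` : every `x ∈ F` is `G(t, y) / H(t, y)` with `G H` of `Y`-degree `< n`, `H ≠ 0`;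
* `irr` : the reduction `P~ ∈ k[X][Y]` is irreducible.

Output: `D := k[X][Y] / (P~)` (a domain), `Ft := Frac D`, `M.redData : RedData K F k Ft` with
`.A = A`, `t, t⁻¹, y ∈ Rw`, `red t = X`, `red y = Y`, `hunram`, and the reduction of every element
`G(t, y)`, `G ∈ A[X][Y]`.
-/
import Mathlib
import Fermat.Agent.GJ27.Red.FracRed
import Fermat.Agent.GJ27.Red.Content

set_option autoImplicit false

noncomputable section

namespace Fermat.Agent.GJ27.Red

open Polynomial Fermat.Agent.GJ.J1

/-- a plane model `P(t, y) = 0` of `F / K` with coefficients in a valuation ring `A` of `K` and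
irreducible reduction. -/
structure PlaneModel (K F k : Type*) [Field K] [Field F] [Algebra K F] [Field k] where
  /-- the valuation ring of the base field -/
  A : ValuationSubring K
  /-- its residue map -/
  res : A →+* k
  res_surjective : Function.Surjective res
  /-- the two coordinates -/
  t : F
  /-- see `t` -/
  y : F
  /-- the equation, in `A[X][Y]` -/
  P : Polynomial (Polynomial A)
  monic : P.Monic
  natDegree_pos : 0 < P.natDegree
  root : evK K t y (incl2 A P) = 0
  indep : ∀ G : Polynomial (Polynomial K), G.natDegree < P.natDegree → evK K t y G = 0 → G = 0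
  gen : ∀ x : F, ∃ G H : Polynomial (Polynomial K), H ≠ 0 ∧ G.natDegree < P.natDegree ∧
    H.natDegree < P.natDegree ∧ x * evK K t y H = evK K t y G
  irr : Irreducible (red2 A res P)

namespace PlaneModel

variable {K F k : Type*} [Field K] [Field F] [Algebra K F] [Field k] (M : PlaneModel K F k)

/-- the degree of the model. -/
def n : ℕ := M.P.natDegree

/-- the reduced equation `P~ ∈ k[X][Y]`. -/
def Pt : Polynomial (Polynomial k) := red2 M.A M.res M.P

theorem Pt_monic : M.Pt.Monic := M.monic.map _

theorem natDegree_Pt : M.Pt.natDegree = M.n := M.monic.natDegree_map _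

theorem Pt_irreducible : Irreducible M.Pt := M.irr

/-- the coordinate ring of the special fibre. -/
abbrev D : Type _ := AdjoinRoot M.Pt

instance : IsDomain M.D :=
  AdjoinRoot.isDomain_of_prime (UniqueFactorizationMonoid.irreducible_iff_prime.1 M.irr)

/-- the function field of the special fibre. -/
abbrev Ft : Type _ := FractionRing M.D

/-- evaluation of `A[X][Y]` at `(t, y)`. -/
def evA : Polynomial (Polynomial M.A) →+* F := (evK K M.t M.y).comp (incl2 M.A)

theorem evA_apply (G : Polynomial (Polynomial M.A)) : M.evA G = evK K M.t M.y (incl2 M.A G) := rfl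

theorem evA_P : M.evA M.P = 0 := M.root

/-- the reduction of `A[X][Y]` to `D`. -/
def redm : Polynomial (Polynomial M.A) →+* M.D := (AdjoinRoot.mk M.Pt).comp (red2 M.A M.res)

theorem redm_apply (G : Polynomial (Polynomial M.A)) :
    M.redm G = AdjoinRoot.mk M.Pt (red2 M.A M.res G) := rfl

theorem redm_surjective : Function.Surjective M.redm :=
  AdjoinRoot.mk_surjective.comp (red2_surjective M.A M.res M.res_surjective)

/-- the kernel of the evaluation is generated by `P`. -/
theorem dvd_of_evA_eq_zero {G : Polynomial (Polynomial M.A)} (h : M.evA G = 0) : M.P ∣ G := by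
  have hP1 : M.P ≠ 1 := by
    intro h1
    have := M.natDegree_pos
    rw [h1, natDegree_one] at this
    exact lt_irrefl _ this
  have hdiv := Polynomial.modByMonic_add_div G M.P
  have hlt : (G %ₘ M.P).natDegree < M.P.natDegree := Polynomial.natDegree_modByMonic_lt G M.monic hP1
  have h0 : M.evA (G %ₘ M.P) = 0 := by
    have h2 : M.evA (G %ₘ M.P) + M.evA M.P * M.evA (G /ₘ M.P) = M.evA G := by
      rw [← map_mul, ← map_add, hdiv]
    rw [M.evA_P, zero_mul, add_zero, h] at h2
    exact h2
  have h3 : incl2 M.A (G %ₘ M.P) = 0 :=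
    M.indep _ (by rw [natDegree_incl2]; exact hlt) h0
  have h4 : G %ₘ M.P = 0 := incl2_injective M.A (by rw [h3, map_zero])
  exact (Polynomial.modByMonic_eq_zero_iff_dvd M.monic).1 h4

/-- the order `A[t, y]`. -/
def O : Subring F := RingHom.range (R := Polynomial (Polynomial M.A)) (S := F) M.evA

theorem mem_O {x : F} : x ∈ M.O ↔ ∃ G : Polynomial (Polynomial M.A), M.evA G = x :=
  RingHom.mem_range (R := Polynomial (Polynomial M.A)) (S := F)

/-- the element `G(t, y)` of the order. -/
def toO (G : Polynomial (Polynomial M.A)) : M.O := ⟨M.evA G, M.mem_O.2 ⟨G, rfl⟩⟩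

@[simp] theorem coe_toO (G : Polynomial (Polynomial M.A)) : ((M.toO G : M.O) : F) = M.evA G := rfl

theorem toO_surjective : Function.Surjective M.toO := by
  intro z
  obtain ⟨G, hG⟩ := M.mem_O.1 z.2
  exact ⟨G, Subtype.ext hG⟩

theorem toO_add (G H : Polynomial (Polynomial M.A)) : M.toO (G + H) = M.toO G + M.toO H :=
  Subtype.ext (map_add M.evA G H)

theorem toO_mul (G H : Polynomial (Polynomial M.A)) : M.toO (G * H) = M.toO G * M.toO H :=
  Subtype.ext (map_mul M.evA G H)

theorem toO_one : M.toO 1 = 1 := Subtype.ext (map_one M.evA)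

theorem toO_zero : M.toO 0 = 0 := Subtype.ext (map_zero M.evA)

theorem redm_P : M.redm M.P = 0 := by
  rw [redm_apply]
  exact AdjoinRoot.mk_self

/-- the reduction only depends on the value `G(t, y)`. -/
theorem redm_eq_of_toO_eq {G H : Polynomial (Polynomial M.A)} (h : M.toO G = M.toO H) :
    M.redm G = M.redm H := by
  have h0 : M.evA (G - H) = 0 := by
    have := congrArg (fun z : M.O => (z : F)) h
    simp only [coe_toO] at this
    rw [map_sub M.evA, this, sub_self]
  obtain ⟨Q, hQ⟩ := M.dvd_of_evA_eq_zero h0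
  have h1 : M.redm (G - H) = 0 := by rw [hQ, map_mul, redm_P, zero_mul]
  rw [map_sub M.redm, sub_eq_zero] at h1
  exact h1

/-- a lift of an element of the order (by choice). -/
def liftO (z : M.O) : Polynomial (Polynomial M.A) := Function.surjInv M.toO_surjective z

theorem toO_liftO (z : M.O) : M.toO (M.liftO z) = z := Function.surjInv_eq M.toO_surjective z

/-- the reduction of the order. -/
def rho : M.O →+* M.D where
  toFun z := M.redm (M.liftO z)
  map_one' := by
    rw [← map_one M.redm]
    exact M.redm_eq_of_toO_eq (by rw [toO_liftO, toO_one])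
  map_mul' z w := by
    rw [← map_mul M.redm]
    exact M.redm_eq_of_toO_eq (by rw [toO_liftO, toO_mul, toO_liftO, toO_liftO])
  map_zero' := by
    rw [← map_zero M.redm]
    exact M.redm_eq_of_toO_eq (by rw [toO_liftO, toO_zero])
  map_add' z w := by
    rw [← map_add M.redm]
    exact M.redm_eq_of_toO_eq (by rw [toO_liftO, toO_add, toO_liftO, toO_liftO])

theorem rho_toO (G : Polynomial (Polynomial M.A)) : M.rho (M.toO G) = M.redm G :=
  M.redm_eq_of_toO_eq (M.toO_liftO _)

theorem rho_surjective : Function.Surjective M.rho := by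
  intro d
  obtain ⟨G, rfl⟩ := M.redm_surjective d
  exact ⟨M.toO G, M.rho_toO G⟩

theorem algebraMap_mem_O (a : M.A) : algebraMap K F (a : K) ∈ M.O :=
  M.mem_O.2 ⟨C (C a), by rw [evA_apply, incl2_C_C, evK_C_C]⟩

theorem toO_C_C (a : M.A) : M.toO (C (C a)) = ⟨algebraMap K F (a : K), M.algebraMap_mem_O a⟩ := by
  apply Subtype.ext
  rw [coe_toO, evA_apply, incl2_C_C, evK_C_C]

theorem redm_C_C (a : M.A) : M.redm (C (C a)) = algebraMap k M.D (M.res a) := by
  rw [redm_apply, red2_C_C, AdjoinRoot.algebraMap_eq']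
  rfl

/-- a polynomial of low degree with a coefficient `1` has nonzero reduction in `D`. -/
theorem redm_ne_zero {G : Polynomial (Polynomial M.A)} (hdeg : G.natDegree < M.P.natDegree)
    {j i : ℕ} (h : (G.coeff j).coeff i = 1) : M.redm G ≠ 0 := by
  intro h0
  rw [redm_apply, AdjoinRoot.mk_eq_zero] at h0
  have hlt : (red2 M.A M.res G).natDegree < M.Pt.natDegree := by
    rw [M.natDegree_Pt]
    exact lt_of_le_of_lt (natDegree_red2_le M.A M.res G) hdeg
  exact red2_ne_zero_of_coeff_eq_one M.A M.res h (Polynomial.eq_zero_of_dvd_of_natDegree_lt h0 hlt)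

theorem evK_eq_of_content {G : Polynomial (Polynomial K)} {c : K}
    {G₀ : Polynomial (Polynomial M.A)} (h : G = C (C c) * incl2 M.A G₀) :
    evK K M.t M.y G = algebraMap K F c * M.evA G₀ := by
  rw [h, map_mul, evK_C_C, evA_apply]

/-- **the frame of the fraction construction.** -/
def frame : FracFrame K F k M.D where
  A := M.A
  res := M.res
  res_surjective := M.res_surjective
  O := M.O
  algebraMap_mem := M.algebraMap_mem_O
  rho := M.rho
  rho_surjective := M.rho_surjective
  rho_algebraMap a := by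
    rw [← toO_C_C, rho_toO, redm_C_C]
  content x hx := by
    obtain ⟨G, H, hH, hGd, hHd, hxGH⟩ := M.gen x
    have hHev : evK K M.t M.y H ≠ 0 := fun h0 => hH (M.indep H hHd h0)
    have hG : G ≠ 0 := by
      rintro rfl
      rw [map_zero] at hxGH
      rcases mul_eq_zero.1 hxGH with h | h
      · exact hx h
      · exact hHev h
    obtain ⟨c₁, G₀, hc₁, hG₀, j₁, i₁, hji₁⟩ := exists_content M.A G hG
    obtain ⟨c₂, H₀, hc₂, hH₀, j₂, i₂, hji₂⟩ := exists_content M.A H hH
    have hG₀d : G₀.natDegree < M.P.natDegree := by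
      have h1 : (incl2 M.A G₀).natDegree ≤ G.natDegree := by
        rw [hG₀]
        have hCC : (C (C c₁) : Polynomial (Polynomial K)) ≠ 0 := by
          rw [ne_eq, C_eq_zero, C_eq_zero]
          exact hc₁
        have hne : incl2 M.A G₀ ≠ 0 := by
          intro h0
          apply hG
          rw [hG₀, h0, mul_zero]
        rw [Polynomial.natDegree_mul hCC hne, natDegree_C, zero_add]
      rw [natDegree_incl2] at h1
      exact lt_of_le_of_lt h1 hGd
    have hH₀d : H₀.natDegree < M.P.natDegree := by
      have h1 : (incl2 M.A H₀).natDegree ≤ H.natDegree := by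
        rw [hH₀]
        have hCC : (C (C c₂) : Polynomial (Polynomial K)) ≠ 0 := by
          rw [ne_eq, C_eq_zero, C_eq_zero]
          exact hc₂
        have hne : incl2 M.A H₀ ≠ 0 := by
          intro h0
          apply hH
          rw [hH₀, h0, mul_zero]
        rw [Polynomial.natDegree_mul hCC hne, natDegree_C, zero_add]
      rw [natDegree_incl2] at h1
      exact lt_of_le_of_lt h1 hHd
    refine ⟨c₁ / c₂, M.toO G₀, M.toO H₀, div_ne_zero hc₁ hc₂, ?_, ?_, ?_⟩
    · rw [rho_toO]
      exact M.redm_ne_zero hG₀d hji₁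
    · rw [rho_toO]
      exact M.redm_ne_zero hH₀d hji₂
    · rw [coe_toO, coe_toO]
      rw [M.evK_eq_of_content hG₀, M.evK_eq_of_content hH₀] at hxGH
      have hc₂F : algebraMap K F c₂ ≠ 0 := by
        rw [ne_eq, map_eq_zero]
        exact hc₂
      rw [map_div₀, div_mul_eq_mul_div, eq_div_iff hc₂F, ← hxGH]
      ring

/-- **the reduction datum of the plane model.** -/
def redData : RedData K F k M.Ft := M.frame.redData M.Ft

@[simp] theorem redData_A : M.redData.A = M.A := rfl

@[simp] theorem redData_res : M.redData.res = M.res := rfl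

/-- `hunram`: every nonzero element of `F` is a constant times a unit of `Rw`. -/
theorem hunram (x : F) (hx : x ≠ 0) : ∃ c : K, c ≠ 0 ∧
    x / algebraMap K F c ∈ M.redData.Rw ∧ (x / algebraMap K F c)⁻¹ ∈ M.redData.Rw :=
  M.frame.hunram x hx

/-- every `G(t, y)`, `G ∈ A[X][Y]`, lies in `Rw`. -/
theorem evA_mem (G : Polynomial (Polynomial M.A)) : M.evA G ∈ M.redData.Rw :=
  M.frame.mem_Rw_of_mem (M.toO G).2

/-- the reduction of `G(t, y)` is the class of `G~`. -/
theorem red_evA (G : Polynomial (Polynomial M.A)) :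
    M.redData.red ⟨M.evA G, M.evA_mem G⟩ = algebraMap M.D M.Ft (M.redm G) := by
  have h := M.frame.redData_red_of_mem (Ft := M.Ft) (M.toO G)
  exact h.trans (congrArg (algebraMap M.D M.Ft) (M.rho_toO G))

theorem evA_C_X : M.evA (C X) = M.t := by
  rw [evA_apply]
  have : incl2 M.A (C X) = C X := by simp [incl2]
  rw [this, evK_C_X]

theorem evA_X : M.evA X = M.y := by
  rw [evA_apply]
  have : incl2 M.A X = X := by simp [incl2]
  rw [this, evK_X]

theorem t_mem : M.t ∈ M.redData.Rw := by
  have := M.evA_mem (C X)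
  rwa [evA_C_X] at this

theorem y_mem : M.y ∈ M.redData.Rw := by
  have := M.evA_mem X
  rwa [evA_X] at this

/-- the class of `X` in `D`. -/
def xD : M.D := AdjoinRoot.of M.Pt X

/-- the class of `Y` in `D`. -/
def yD : M.D := AdjoinRoot.root M.Pt

theorem redm_C_X : M.redm (C X) = M.xD := by
  rw [redm_apply, red2_C_X]
  rfl

theorem redm_X : M.redm X = M.yD := by
  rw [redm_apply, red2_X]
  rfl

/-- **`red t = X`.** -/
theorem red_t : M.redData.red ⟨M.t, M.t_mem⟩ = algebraMap M.D M.Ft M.xD := by
  have h := M.red_evA (C X)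
  rw [redm_C_X] at h
  rw [← h]
  congr 1
  exact Subtype.ext M.evA_C_X.symm

/-- **`red y = Y`.** -/
theorem red_y : M.redData.red ⟨M.y, M.y_mem⟩ = algebraMap M.D M.Ft M.yD := by
  have h := M.red_evA X
  rw [redm_X] at h
  rw [← h]
  congr 1
  exact Subtype.ext M.evA_X.symm

/-- a polynomial in `X` alone is nonzero in `D`. -/
theorem of_ne_zero {q : Polynomial k} (hq : q ≠ 0) : AdjoinRoot.of M.Pt q ≠ 0 := by
  intro h0
  have h1 : AdjoinRoot.mk M.Pt (C q) = 0 := h0
  rw [AdjoinRoot.mk_eq_zero] at h1
  have hlt : (C q : Polynomial (Polynomial k)).natDegree < M.Pt.natDegree := by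
    rw [natDegree_C, M.natDegree_Pt]
    exact M.natDegree_pos
  have := Polynomial.eq_zero_of_dvd_of_natDegree_lt h1 hlt
  rw [C_eq_zero] at this
  exact hq this

theorem xD_ne_zero : M.xD ≠ 0 := M.of_ne_zero X_ne_zero

/-- `1 / t ∈ Rw`. -/
theorem t_inv_mem : M.t⁻¹ ∈ M.redData.Rw := by
  have hfr : M.frame.IsFrac M.t (M.toO (C X)) 1 := by
    refine ⟨by rw [map_one]; exact one_ne_zero, ?_⟩
    rw [coe_toO, evA_C_X]
    simp
  have hrho : M.frame.rho (M.toO (C X)) ≠ 0 := by
    have h1 : M.frame.rho (M.toO (C X)) = M.xD := (M.rho_toO (C X)).trans M.redm_C_X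
    rw [h1]
    exact M.xD_ne_zero
  exact ⟨_, _, hfr.inv hrho⟩

theorem aeval_xD (q : Polynomial k) : aeval M.xD q = AdjoinRoot.of M.Pt q := by
  have h := Polynomial.aeval_algebraMap_apply (R := k) (A := Polynomial k) M.D (X : Polynomial k) q
  rw [Polynomial.aeval_X_left_apply, AdjoinRoot.algebraMap_eq] at h
  exact h

/-- **`red t` is transcendental over `k`.** -/
theorem transcendental_red_t : Transcendental k (M.redData.red ⟨M.t, M.t_mem⟩) := by
  rw [red_t]
  intro halg
  obtain ⟨q, hq0, hq⟩ := halg
  have h1 : aeval (algebraMap M.D M.Ft M.xD) q = algebraMap M.D M.Ft (AdjoinRoot.of M.Pt q) := by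
    rw [← aeval_xD, ← Polynomial.aeval_algebraMap_apply]
  rw [h1, map_eq_zero_iff _ (IsFractionRing.injective M.D M.Ft)] at hq
  exact M.of_ne_zero hq0 hq

/-- the Gauss chart. -/
theorem isGaussChart : M.redData.IsGaussChart M.t := ⟨M.t_mem, M.transcendental_red_t⟩

end PlaneModel

end Fermat.Agent.GJ27.Red
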