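/-
GATE-J27 (S27) / node B3 = GJ27-RED, file 4 (helper82): the ADAPTER from the exports of B1
(`GJ27/Eis/Main.exists_eisenstein_presentation`, helper62) and B2 (a valuation ring `A` of `K`
containing the coefficients) to a `PlaneModel` of `GJ27/Red/Model.lean`.

* `indep_of_finrank` : `t` transcendental, `[F : K(t)] = n`, `K(t)(y) = F` ⟹ a `G ∈ K[X][Y]` of
  `Y`-degree `< n` with `G(t, y) = 0` is zero;
* `gen_of_adjoin`    : every `x ∈ F` is `G(t, y) / h(t)` with `deg_Y G < n`, `h ≠ 0`;
* `liftP`            : the equation as an element of `A[X][Y]`;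
* `irreducible_red2_of_eisenstein` : Eisenstein shape + unit linear coefficient ⟹ the reduced
  equation is irreducible;
* `planeModelOfEis`  : the `PlaneModel`.
Mathlib + `S24/Gen` + `GJ27/Red/Model` only.
-/
import Mathlib
import Fermat.Agent.S24.Gen
import Fermat.Agent.GJ27.Red.Model

set_option autoImplicit false

noncomputable section

namespace Fermat.Agent.GJ27.Red

open Polynomial IntermediateField Fermat.Agent.S24

variable {K F : Type*} [Field K] [Field F] [Algebra K F]

section Adjoin

variable (K) (t y : F)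

/-- the evaluation `K[X] → K(t)`. -/
def phiT : Polynomial K →+* K⟮t⟯ :=
  ((Polynomial.aeval (AdjoinSimple.gen K t) : Polynomial K →ₐ[K] K⟮t⟯) : Polynomial K →+* K⟮t⟯)

theorem algebraMap_phiT (g : Polynomial K) : algebraMap K⟮t⟯ F (phiT K t g) = aeval t g := by
  have h := Polynomial.aeval_algebraMap_apply (R := K) (A := K⟮t⟯) F (AdjoinSimple.gen K t) g
  rw [AdjoinSimple.algebraMap_gen] at h
  exact h.symm

theorem phiT_injective (ht : Transcendental K t) : Function.Injective (phiT K t) := by
  rw [injective_iff_map_eq_zero]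
  intro g hg
  have h1 : aeval t g = 0 := by rw [← algebraMap_phiT, hg, map_zero]
  by_contra h0
  exact ht ⟨g, h0, h1⟩

/-- evaluation at `(t, y)` factors through `K(t)[Y]`. -/
theorem evK_eq_aeval_map (G : Polynomial (Polynomial K)) :
    evK K t y G = aeval y (G.map (phiT K t)) := by
  rw [Polynomial.aeval_def, Polynomial.eval₂_map]
  show Polynomial.eval₂ _ y G = _
  congr 1
  apply RingHom.ext
  intro g
  exact (algebraMap_phiT K t g).symm

variable {K} {t y}

/-- `1, y, …, y^(n-1)` are linearly independent over `K[t]`. -/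
theorem indep_of_finrank (ht : Transcendental K t) [FiniteDimensional K⟮t⟯ F] {n : ℕ}
    (hfin : Module.finrank K⟮t⟯ F = n) (htop : (K⟮t⟯)⟮y⟯ = ⊤)
    (G : Polynomial (Polynomial K)) (hG : G.natDegree < n) (h0 : evK K t y G = 0) : G = 0 := by
  have hint : IsIntegral K⟮t⟯ y := IsIntegral.of_finite K⟮t⟯ y
  have hdeg : (minpoly K⟮t⟯ y).natDegree = n := by
    rw [← IntermediateField.adjoin.finrank hint, htop, IntermediateField.finrank_top', hfin]
  by_contra hne
  have hmap : G.map (phiT K t) ≠ 0 := by
    intro h
    apply hne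
    apply Polynomial.map_injective (phiT K t) (phiT_injective K t ht)
    rw [h, Polynomial.map_zero]
  rw [evK_eq_aeval_map] at h0
  have h1 := minpoly.degree_le_of_ne_zero K⟮t⟯ y hmap h0
  have h2 : (minpoly K⟮t⟯ y).natDegree ≤ (G.map (phiT K t)).natDegree :=
    Polynomial.natDegree_le_natDegree h1
  have h3 : (G.map (phiT K t)).natDegree ≤ G.natDegree := Polynomial.natDegree_map_le
  omega

/-- clearing denominators in `K(t)[Y]`. -/
theorem exists_clear_denominators (f : Polynomial K⟮t⟯) (n : ℕ)
    (hf : f.natDegree < n) :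
    ∃ (G : Polynomial (Polynomial K)) (h : Polynomial K), h ≠ 0 ∧ G.natDegree < n ∧
      G.map (phiT K t) = C (phiT K t h) * f := by
  classical
  -- numerators and denominators of the coefficients
  have hcoef : ∀ j : ℕ, ∃ r s : Polynomial K, s ≠ 0 ∧ phiT K t s * f.coeff j = phiT K t r := by
    intro j
    have hmem : ((f.coeff j : K⟮t⟯) : F) ∈ K⟮t⟯ := (f.coeff j).2
    obtain ⟨r, s, hrs⟩ := (IntermediateField.mem_adjoin_simple_iff K _).1 hmem
    by_cases hs : aeval t s = 0
    · refine ⟨0, 1, one_ne_zero, ?_⟩
      have h0 : f.coeff j = 0 := by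
        apply Subtype.ext
        rw [hrs, hs, div_zero]
        rfl
      rw [h0, mul_zero, map_zero]
    · refine ⟨r, s, ?_, ?_⟩
      · rintro rfl
        exact hs (map_zero _)
      · apply (algebraMap K⟮t⟯ F).injective
        rw [map_mul, algebraMap_phiT, algebraMap_phiT]
        show aeval t s * ((f.coeff j : K⟮t⟯) : F) = aeval t r
        rw [hrs, mul_div_cancel₀ _ hs]
  choose r s hs hrs using hcoef
  refine ⟨∑ j ∈ Finset.range n, monomial j (r j * ∏ i ∈ (Finset.range n).erase j, s i),
    ∏ i ∈ Finset.range n, s i, ?_, ?_, ?_⟩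
  · exact Finset.prod_ne_zero_iff.2 fun i _ => hs i
  · rcases Nat.eq_zero_or_pos n with rfl | hn
    · exact absurd hf (Nat.not_lt_zero _)
    · have hle : (∑ j ∈ Finset.range n,
          monomial j (r j * ∏ i ∈ (Finset.range n).erase j, s i)).natDegree ≤ n - 1 := by
        apply Polynomial.natDegree_sum_le_of_forall_le
        intro j hj
        exact (Polynomial.natDegree_monomial_le _).trans
          (Nat.le_sub_one_of_lt (Finset.mem_range.1 hj))
      omega
  · rw [Polynomial.map_sum]
    conv_rhs => rw [Polynomial.as_sum_range' f n hf, Finset.mul_sum]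
    apply Finset.sum_congr rfl
    intro j hj
    rw [Polynomial.map_monomial, Polynomial.C_mul_monomial, map_mul, map_prod, map_prod,
      ← Finset.mul_prod_erase (Finset.range n) (fun i => phiT K t (s i)) hj]
    congr 1
    rw [← hrs j]
    ring

/-- every element of `F` is `G(t, y) / h(t)` with `deg_Y G < n`. -/
theorem gen_of_adjoin (ht : Transcendental K t) [FiniteDimensional K⟮t⟯ F] {n : ℕ} (hn : 0 < n)
    (hfin : Module.finrank K⟮t⟯ F = n) (htop : (K⟮t⟯)⟮y⟯ = ⊤) (x : F) :
    ∃ G H : Polynomial (Polynomial K), H ≠ 0 ∧ G.natDegree < n ∧ H.natDegree < n ∧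
      x * evK K t y H = evK K t y G := by
  have hint : IsIntegral K⟮t⟯ y := IsIntegral.of_finite K⟮t⟯ y
  have hdeg : (minpoly K⟮t⟯ y).natDegree = n := by
    rw [← IntermediateField.adjoin.finrank hint, htop, IntermediateField.finrank_top', hfin]
  have hx : x ∈ (K⟮t⟯)⟮y⟯ := by rw [htop]; exact IntermediateField.mem_top
  obtain ⟨f, hfdeg, hfx⟩ := (IntermediateField.adjoin.powerBasis hint).exists_eq_aeval ⟨x, hx⟩
  rw [IntermediateField.adjoin.powerBasis_dim, hdeg] at hfdeg
  rw [IntermediateField.adjoin.powerBasis_gen] at hfx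
  have hxf : x = aeval y f := by
    have h1 := congrArg (fun z : (K⟮t⟯)⟮y⟯ => (z : F)) hfx
    simp only at h1
    rw [h1, ← IntermediateField.AdjoinSimple.algebraMap_gen K⟮t⟯ y,
      Polynomial.aeval_algebraMap_apply]
    rfl
  obtain ⟨G, h, hh, hGdeg, hGf⟩ := exists_clear_denominators f n hfdeg
  refine ⟨G, C h, ?_, hGdeg, ?_, ?_⟩
  · rw [ne_eq, C_eq_zero]
    exact hh
  · rw [natDegree_C]
    exact hn
  · rw [evK_C, evK_eq_aeval_map, hGf, map_mul, aeval_C, algebraMap_phiT, hxf]
    ring

end Adjoin

section Lift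

variable (A : ValuationSubring K)

/-- the equation with coefficients in `A`, as an element of `A[X][Y]` (by choice). -/
def liftP (P : Polynomial (Polynomial K)) (hA : ∀ j i, (P.coeff j).coeff i ∈ A) :
    Polynomial (Polynomial A) := (exists_incl2_eq A P hA).choose

theorem incl2_liftP (P : Polynomial (Polynomial K)) (hA : ∀ j i, (P.coeff j).coeff i ∈ A) :
    incl2 A (liftP A P hA) = P := (exists_incl2_eq A P hA).choose_spec

theorem natDegree_liftP (P : Polynomial (Polynomial K)) (hA : ∀ j i, (P.coeff j).coeff i ∈ A) :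
    (liftP A P hA).natDegree = P.natDegree := by
  rw [← natDegree_incl2 A, incl2_liftP]

theorem coeff_liftP (P : Polynomial (Polynomial K)) (hA : ∀ j i, (P.coeff j).coeff i ∈ A)
    (j i : ℕ) : ((((liftP A P hA).coeff j).coeff i : A) : K) = (P.coeff j).coeff i := by
  rw [← incl2_coeff_coeff, incl2_liftP]

theorem liftP_monic (P : Polynomial (Polynomial K)) (hA : ∀ j i, (P.coeff j).coeff i ∈ A)
    (hP : P.Monic) : (liftP A P hA).Monic := by
  have hinj : Function.Injective (Polynomial.map A.subtype : Polynomial A → Polynomial K) :=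
    Polynomial.map_injective _ Subtype.val_injective
  have h1 : (incl2 A (liftP A P hA)).coeff (liftP A P hA).natDegree =
      Polynomial.map A.subtype ((liftP A P hA).coeff (liftP A P hA).natDegree) := by
    simp [incl2, Polynomial.coeff_map]
  show (liftP A P hA).leadingCoeff = 1
  apply hinj
  rw [Polynomial.leadingCoeff, ← h1, incl2_liftP, natDegree_liftP, Polynomial.map_one]
  exact hP

variable {k : Type*} [Field k] (res : A →+* k)

/-- **Eisenstein's criterion for the reduced equation**: `X ∣ a_i` for `i < n`, and the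
`X`-coefficient of `a_0` has nonzero residue. -/
theorem irreducible_red2_of_eisenstein (P : Polynomial (Polynomial K))
    (hA : ∀ j i, (P.coeff j).coeff i ∈ A) (hP : P.Monic) (hn : 0 < P.natDegree)
    (hdvd : ∀ i, i < P.natDegree → X ∣ P.coeff i)
    (hu : res ((((liftP A P hA).coeff 0).coeff 1)) ≠ 0) :
    Irreducible (red2 A res (liftP A P hA)) := by
  set PA := liftP A P hA with hPA
  have hmon : (red2 A res PA).Monic := (liftP_monic A P hA hP).map _
  have hdeg : (red2 A res PA).natDegree = P.natDegree := by
    rw [red2, Polynomial.coe_mapRingHom, (liftP_monic A P hA hP).natDegree_map, natDegree_liftP]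
  have hprime : (Ideal.span {(X : Polynomial k)}).IsPrime := by
    rw [Ideal.span_singleton_prime X_ne_zero]
    exact Polynomial.prime_X
  refine Polynomial.irreducible_of_eisenstein_criterion hprime ?_ ?_ ?_ ?_ hmon.isPrimitive
  · rw [hmon.leadingCoeff, Ideal.mem_span_singleton]
    intro h
    have := Polynomial.X_dvd_iff.1 h
    simp at this
  · intro i hi
    rw [Polynomial.degree_eq_natDegree hmon.ne_zero, Nat.cast_lt, hdeg] at hi
    rw [Ideal.mem_span_singleton, Polynomial.X_dvd_iff, red2_coeff_coeff]
    have h1 : (P.coeff i).coeff 0 = 0 := Polynomial.X_dvd_iff.1 (hdvd i hi)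
    have h2 : ((PA.coeff i).coeff 0 : A) = 0 := by
      apply Subtype.ext
      rw [coeff_liftP, h1]
      rfl
    rw [h2, map_zero]
  · rw [Polynomial.degree_eq_natDegree hmon.ne_zero, hdeg]
    exact_mod_cast hn
  · rw [Ideal.span_singleton_pow, Ideal.mem_span_singleton, Polynomial.X_pow_dvd_iff]
    intro h
    have := h 1 (by norm_num)
    rw [red2_coeff_coeff] at this
    exact hu this

end Lift

section Assemble

variable {k : Type*} [Field k]

/-- **the plane model of an Eisenstein presentation** (exports of `GJ27/Eis/Main` VERBATIM +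
a valuation ring containing the coefficients + irreducibility of the reduction). -/
def planeModelOfEis (A : ValuationSubring K) (res : A →+* k) (hres : Function.Surjective res)
    (t y : F) [IsGen K t] (n : ℕ) (hn : 0 < n) (P : Polynomial (Polynomial K))
    (hfin : Module.finrank K⟮t⟯ F = n) (htop : (K⟮t⟯)⟮y⟯ = ⊤)
    (hP : P.Monic) (hPn : P.natDegree = n)
    (hroot : Polynomial.eval₂ (Polynomial.aeval t : Polynomial K →ₐ[K] F).toRingHom y P = 0)
    (hA : ∀ j i, (P.coeff j).coeff i ∈ A)
    (hirr : Irreducible (red2 A res (liftP A P hA))) : PlaneModel K F k where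
  A := A
  res := res
  res_surjective := hres
  t := t
  y := y
  P := liftP A P hA
  monic := liftP_monic A P hA hP
  natDegree_pos := by rw [natDegree_liftP, hPn]; exact hn
  root := by rw [incl2_liftP]; exact hroot
  indep G hG h0 := by
    rw [natDegree_liftP, hPn] at hG
    exact indep_of_finrank (IsGen.transcendental (K := K) (x := t)) hfin htop G hG h0
  gen x := by
    rw [natDegree_liftP, hPn]
    exact gen_of_adjoin (IsGen.transcendental (K := K) (x := t)) hn hfin htop x
  irr := hirr

/-- the same, with the Eisenstein shape of `P` instead of the irreducibility of the reduction: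
`X ∣ a_i` for `i < n` and the `X`-coefficient of `a_0` has nonzero residue. -/
def planeModelOfEis' (A : ValuationSubring K) (res : A →+* k) (hres : Function.Surjective res)
    (t y : F) [IsGen K t] (n : ℕ) (hn : 0 < n) (P : Polynomial (Polynomial K))
    (hfin : Module.finrank K⟮t⟯ F = n) (htop : (K⟮t⟯)⟮y⟯ = ⊤)
    (hP : P.Monic) (hPn : P.natDegree = n)
    (hroot : Polynomial.eval₂ (Polynomial.aeval t : Polynomial K →ₐ[K] F).toRingHom y P = 0)
    (hA : ∀ j i, (P.coeff j).coeff i ∈ A)
    (hdvd : ∀ i, i < n → X ∣ P.coeff i)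
    (hu : res ((((liftP A P hA).coeff 0).coeff 1)) ≠ 0) : PlaneModel K F k :=
  planeModelOfEis A res hres t y n hn P hfin htop hP hPn hroot hA
    (irreducible_red2_of_eisenstein A res P hA hP (by rw [hPn]; exact hn)
      (by rw [hPn]; exact hdvd) hu)

section Simp

variable (A : ValuationSubring K) (res : A →+* k) (hres : Function.Surjective res)
    (t y : F) [IsGen K t] (n : ℕ) (hn : 0 < n) (P : Polynomial (Polynomial K))
    (hfin : Module.finrank K⟮t⟯ F = n) (htop : (K⟮t⟯)⟮y⟯ = ⊤)
    (hP : P.Monic) (hPn : P.natDegree = n)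
    (hroot : Polynomial.eval₂ (Polynomial.aeval t : Polynomial K →ₐ[K] F).toRingHom y P = 0)
    (hA : ∀ j i, (P.coeff j).coeff i ∈ A)
    (hirr : Irreducible (red2 A res (liftP A P hA)))

@[simp] theorem planeModelOfEis_A :
    (planeModelOfEis A res hres t y n hn P hfin htop hP hPn hroot hA hirr).A = A := rfl

@[simp] theorem planeModelOfEis_res :
    (planeModelOfEis A res hres t y n hn P hfin htop hP hPn hroot hA hirr).res = res := rfl

@[simp] theorem planeModelOfEis_t :
    (planeModelOfEis A res hres t y n hn P hfin htop hP hPn hroot hA hirr).t = t := rfl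

@[simp] theorem planeModelOfEis_y :
    (planeModelOfEis A res hres t y n hn P hfin htop hP hPn hroot hA hirr).y = y := rfl

@[simp] theorem planeModelOfEis_P :
    (planeModelOfEis A res hres t y n hn P hfin htop hP hPn hroot hA hirr).P = liftP A P hA := rfl

theorem planeModelOfEis_n :
    (planeModelOfEis A res hres t y n hn P hfin htop hP hPn hroot hA hirr).n = n := by
  show (liftP A P hA).natDegree = n
  rw [natDegree_liftP, hPn]

theorem planeModelOfEis_incl2_P :
    incl2 A (planeModelOfEis A res hres t y n hn P hfin htop hP hPn hroot hA hirr).P = P :=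
  incl2_liftP A P hA

end Simp

end Assemble

end Fermat.Agent.GJ27.Red
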