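/-
GATE-J27 (S27) / node B5 (hedge, helper82): **`SpecData` from ONE plane model.**

Input: `M : PlaneModel K F k` (`GJ27/Red/Model.lean`) over an algebraically closed, locally finite
residue field `k` of characteristic `p ≠ ℓ`, with
* the coefficients of the reduced equation `M.Pt` fixed by `a ↦ a ^ (p ^ f)`,
* a reduced Bezout certificate `Ut * M.Pt + Vt * ∂_Y M.Pt = C δt`, `δt ≠ 0` (separability of the
  special fibre over `k(x̄)`),
* a monic `G ∈ A[X]` with squarefree reduction and `PlaceBranch K t G` (tame branch data).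

Output: `Nonempty (SpecData K F ℓ)` of `GJ27/Vocab.lean`.  Recipe = `GJ/S37/LSpaceHypPrimitive`
(`ResData.ofRedData`, `orth_of_finrank_le`, `redRegFin_of_finrank_le`, `gLat_le_of_placeBranch`,
`lSpaceHyp_of_chart`) with `hdeg` from `GJ27/Red/ModelFt` and `gLat = genusFF` from `GJ27/Front`.
-/
import Mathlib
import Fermat.Agent.GJ27.Vocab
import Fermat.Agent.GJ27.Red.Model
import Fermat.Agent.GJ27.Red.ModelFt
import Fermat.Agent.GJ27.Red.Frob
import Fermat.Agent.GJ27.Front.Main
import Fermat.Agent.GJ.S37.LSpaceHypPrimitive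
import Fermat.Agent.GJ.J1.GenusBranch

set_option autoImplicit false
set_option linter.unusedSectionVars false

noncomputable section

open AlgebraicCurve IntermediateField Module Polynomial

namespace Fermat.Agent.GJ27.Red

open Fermat.Agent.S24 Fermat.Agent.RRh45 Fermat.Agent.GJ.J1 Fermat.Agent.GJ.J1.AbsCore
  Fermat.Agent.GJ.J1.G1 Fermat.Agent.GJ.S37LSpace Fermat.Agent.GJ.S37LSpaceInst
open Fermat.Agent.GJ.J1.DiffAdapter (PlaceBranch)

universe u v

variable {K : Type u} {F : Type v} [Field K] [Field F] [Algebra K F] [IsAlgClosed K] [CharZero K]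
  [IsCurveOver K F] [Algebra.EssFiniteType K F]
variable {k : Type u} [Field k] [IsAlgClosed k]

/-- **B5, one-model form.** -/
theorem nonempty_specData_of_planeModel (M : PlaneModel K F k) (ℓ p : ℕ) [Fact p.Prime]
    [CharP k p] (hpℓ : p ≠ ℓ)
    (hlf : ∀ a : k, ∃ m : ℕ, 0 < m ∧ a ^ (p ^ m) = a)
    (f : ℕ) (hf : 0 < f)
    (hfix : ∀ i j : ℕ, ((M.Pt.coeff i).coeff j) ^ (p ^ f) = (M.Pt.coeff i).coeff j)
    (Ut Vt : Polynomial (Polynomial k)) (δt : Polynomial k) (hδt : δt ≠ 0)
    (hbez : Ut * M.Pt + Vt * derivative M.Pt = C δt)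
    (G : Polynomial M.A) (hGm : G.Monic) (hGsq : Squarefree (G.map M.res))
    (hbr : PlaceBranch K M.t (G.map M.A.subtype))
    (hfinK : Module.finrank K⟮M.t⟯ F = M.n) :
    Nonempty (SpecData K F ℓ) := by
  classical
  -- the generic fibre
  obtain ⟨x₀, hx₀⟩ := Front.exists_isGen K F
  have hneK : Nonempty (Place K F) := Front.nonempty_place K F
  -- the chart
  set R : RedData K F k M.Ft := M.redData with hR
  have ht : M.t ∈ R.Rw := M.t_mem
  have hti : M.t⁻¹ ∈ R.Rw := M.t_inv_mem
  have htr : Transcendental k (R.red ⟨M.t, ht⟩) := M.transcendental_red_t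
  have hgc : R.IsGaussChart M.t := ⟨ht, htr⟩
  have htK : Transcendental K M.t := IntRed.transcendental_of_isGaussChart hgc
  have hfdK : FiniteDimensional K⟮M.t⟯ F := Front.finiteDimensional_of_transcendental htK
  have hsepK : Algebra.IsSeparable K⟮M.t⟯ F := Front.isSeparable_of_transcendental htK
  -- the special fibre over `k(x̄)`
  have hpos : 0 < M.Pt.natDegree := by rw [M.natDegree_Pt]; exact M.natDegree_pos
  have hredt : R.red ⟨M.t, ht⟩ = ModelFt.xbar M.Pt M.Ft := M.red_t
  have hfink : Module.finrank k⟮R.red ⟨M.t, ht⟩⟯ M.Ft = M.Pt.natDegree :=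
    ModelFt.finrank_of_eq M.Ft M.Pt_monic hpos hredt
  have hgenk : IsGen k (R.red ⟨M.t, ht⟩) := ModelFt.isGen_of_eq M.Ft M.Pt_monic hpos hredt
  have hsepk : Algebra.IsSeparable k⟮R.red ⟨M.t, ht⟩⟯ M.Ft :=
    ModelFt.isSeparable_of_eq M.Ft M.Pt_monic hpos hδt hbez hredt
  have hfdk : FiniteDimensional k⟮R.red ⟨M.t, ht⟩⟯ M.Ft := hgenk.finite
  have hdeg : finrank K⟮M.t⟯ F ≤ finrank k⟮R.red ⟨M.t, ht⟩⟯ M.Ft := by
    rw [hfink, M.natDegree_Pt, hfinK]
  -- valuation-side inputs and the genus inequality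
  have hRD : ResData R.A R.Rw R.res R.red := ResData.ofRedData R M.hunram
  have horth : Orth R.A R.Rw := R.orth_of_finrank_le M.t ht htr hdeg
  have hG : R.RedRegFin M.t := R.redRegFin_of_finrank_le M.t ht htr hdeg
  have hGi : R.RedRegFin M.t⁻¹ := R.redRegFin_inv_of_finrank_le M.t ht hti htr hdeg
  have hgle : gLat K M.t ≤ gLat k (R.red ⟨M.t, ht⟩) :=
    R.gLat_le_of_placeBranch hRD horth ht hti htK htr hG hGi G hGm hGsq hbr
  -- the Place API on the special fibre
  have i4 : FiniteResidues k M.Ft :=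
    Fermat.Agent.GJ.FF.finiteResidues (K := k) (R.red ⟨M.t, ht⟩)
  have i5 : HasPrincipalDivisors k M.Ft :=
    Fermat.Agent.GJ.FF.PrincipalOf.hasPrincipalDivisors_gen (K := k) (R.red ⟨M.t, ht⟩)
  have i6 : Nonempty (Place k M.Ft) :=
    Fermat.Agent.GJ.FF.nonempty_place (K := k) (R.red ⟨M.t, ht⟩)
  obtain ⟨c, H⟩ := lSpaceHyp_of_chart R ht hti htr hdeg hgle
  rw [Front.gLat_eq_genusFF htK] at H
  -- the Frobenius
  have : ExpChar k p := ExpChar.prime Fact.out
  have hφ : ∀ a : k, iterateFrobenius k p f a = a ^ p ^ f := fun a => iterateFrobenius_def p f a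
  have hPt : M.Pt.map (mapRingHom (iterateFrobenius k p f)) = M.Pt :=
    Frob.map_mapRingHom_eq_self_of_coeff (iterateFrobenius k p f) M.Pt
      (fun i j => by rw [hφ]; exact hfix i j)
  exact ⟨{
    p := p
    hp := Fact.out
    hpℓ := hpℓ
    k := k
    Ft := M.Ft
    instFieldk := inferInstance
    instFieldFt := inferInstance
    instAlgebra := inferInstance
    instIsAlgClosed := inferInstance
    instCharP := inferInstance
    instFiniteResidues := i4
    instHasPrincipalDivisors := i5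
    instNonemptyPlace := i6
    nonemptyPlaceGeneric := hneK
    R := R
    c := c
    H := H
    x₀ := R.red ⟨M.t, ht⟩
    gen := hgenk
    Φ := Frob.frobStrAdjoinRoot (Ft := M.Ft) (iterateFrobenius k p f) M.Pt hPt hf hlf hφ }⟩

end Fermat.Agent.GJ27.Red
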