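/-
GATE-J27 (S27) / node B5 (hedge, helper82): **SPEC from the landed nodes B0–B4.**

`specStmt : SpecStmt` — every curve over an algebraically closed field of characteristic zero has a
good reduction to an algebraic closure of a finite field of characteristic `≠ ℓ`:

* B0 `GJ27/Front/Main`    : a generator `x₀`, a place `P0`;
* B1 `GJ27/Eis/Main`      : the Eisenstein presentation `P(t, y) = 0` with a Bezout certificate;
* B4 `GJ27/Branch/OfEis`  : the branch polynomial `G0` and its finite set `S` of constants;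
* B2 `GJ27/Chev/Place`    : a place `A` of `K` containing all the coefficients, at which the
                            `X`-coefficient of `a_0` and the leading coefficient of `δ` are units;
* B3 `GJ27/Red/*`         : the plane model `M := planeModelOfEis' …` and `SpecOfModel`.
-/
import Mathlib
import Fermat.Agent.GJ27.Red.SpecOfModel
import Fermat.Agent.GJ27.Red.OfEis
import Fermat.Agent.GJ27.Eis.Main
import Fermat.Agent.GJ27.Chev.Place
import Fermat.Agent.GJ27.Branch.OfEis

set_option autoImplicit false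
set_option linter.unusedSectionVars false

noncomputable section

open AlgebraicCurve IntermediateField Module Polynomial IsLocalRing

namespace Fermat.Agent.GJ27.Red

open Fermat.Agent.S24 Fermat.Agent.GJ.J1
open Fermat.Agent.GJ.J1.DiffAdapter (PlaceBranch)

universe u v

/-! ### coefficient sets of bivariate polynomials -/

section Coeffs

variable {K : Type*} [Field K]

/-- the finite set of nonzero coefficients of a bivariate polynomial. -/
def coeffs2 (Q : Polynomial (Polynomial K)) : Finset K := by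
  classical
  exact Q.support.biUnion fun j => (Q.coeff j).coeffs

theorem coeff_coeff_mem_coeffs2 (Q : Polynomial (Polynomial K)) (j i : ℕ)
    (h : (Q.coeff j).coeff i ≠ 0) : (Q.coeff j).coeff i ∈ coeffs2 Q := by
  classical
  rw [coeffs2, Finset.mem_biUnion]
  refine ⟨j, ?_, Polynomial.coeff_mem_coeffs h⟩
  rw [Polynomial.mem_support_iff]
  intro h0
  apply h
  rw [h0, Polynomial.coeff_zero]

/-- a valuation subring containing `coeffs2 Q` contains all the coefficients of `Q`. -/
theorem coeff_coeff_mem_of_coeffs2 (A : ValuationSubring K) (Q : Polynomial (Polynomial K))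
    (h : ∀ s ∈ coeffs2 Q, s ∈ A) (j i : ℕ) : (Q.coeff j).coeff i ∈ A := by
  by_cases h0 : (Q.coeff j).coeff i = 0
  · rw [h0]; exact A.zero_mem
  · exact h _ (coeff_coeff_mem_coeffs2 Q j i h0)

end Coeffs

/-! ### the reduced Bezout certificate -/

section Bezout

variable {K : Type*} [Field K] (A : ValuationSubring K) {k : Type*} [Field k] (res : A →+* k)

theorem incl2_derivative (G : Polynomial (Polynomial A)) :
    incl2 A (derivative G) = derivative (incl2 A G) := by
  show (derivative G).map _ = derivative (G.map _)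
  rw [Polynomial.derivative_map]

theorem red2_derivative (G : Polynomial (Polynomial A)) :
    red2 A res (derivative G) = derivative (red2 A res G) := by
  show (derivative G).map _ = derivative (G.map _)
  rw [Polynomial.derivative_map]

/-- the Bezout certificate over `A`. -/
theorem liftP_bezout (P U V : Polynomial (Polynomial K)) (δ : Polynomial K)
    (hP : ∀ j i, (P.coeff j).coeff i ∈ A) (hU : ∀ j i, (U.coeff j).coeff i ∈ A)
    (hV : ∀ j i, (V.coeff j).coeff i ∈ A)
    (hδ : ∀ j i, ((C δ : Polynomial (Polynomial K)).coeff j).coeff i ∈ A)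
    (hbez : U * P + V * derivative P = C δ) :
    liftP A U hU * liftP A P hP + liftP A V hV * derivative (liftP A P hP) =
      liftP A (C δ) hδ := by
  apply incl2_injective A
  rw [map_add, map_mul, map_mul, incl2_derivative, incl2_liftP, incl2_liftP, incl2_liftP,
    incl2_liftP, hbez]

/-- the reduction of (the lift of) a constant `C δ` is a constant. -/
theorem red2_liftP_C (δ : Polynomial K)
    (hδ : ∀ j i, ((C δ : Polynomial (Polynomial K)).coeff j).coeff i ∈ A) :
    red2 A res (liftP A (C δ) hδ) = C (((liftP A (C δ) hδ).coeff 0).map res) := by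
  ext j i
  rw [red2_coeff_coeff, Polynomial.coeff_C]
  split_ifs with hj
  · subst hj
    rw [Polynomial.coeff_map]
  · have h0 : ((liftP A (C δ) hδ).coeff j).coeff i = 0 := by
      apply Subtype.ext
      rw [coeff_liftP, Polynomial.coeff_C, if_neg hj, Polynomial.coeff_zero]
      rfl
    rw [h0, map_zero, Polynomial.coeff_zero]

end Bezout

/-! ### the instantiation -/

section Main

variable {K : Type u} {F : Type v} [Field K] [Field F] [Algebra K F] [IsAlgClosed K] [CharZero K]
  [IsCurveOver K F] [Algebra.EssFiniteType K F]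

/-- **B5 with an explicit place `A` of `K`** (all hypotheses are outputs of B1, B2, B4). -/
theorem nonempty_specData_of_place (A : ValuationSubring K) (ℓ p f : ℕ) [Fact p.Prime]
    (hpℓ : p ≠ ℓ) (hf : 0 < f)
    [CharP (ResidueField A) p] [IsAlgClosed (ResidueField A)]
    (hlf : ∀ a : ResidueField A, ∃ m : ℕ, 0 < m ∧ a ^ (p ^ m) = a)
    (t y : F) [IsGen K t] (n : ℕ) (hn : 0 < n) (P : Polynomial (Polynomial K))
    (hfin : Module.finrank K⟮t⟯ F = n) (htop : (K⟮t⟯)⟮y⟯ = ⊤)
    (hPm : P.Monic) (hPn : P.natDegree = n)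
    (hroot : Polynomial.eval₂ (Polynomial.aeval t : Polynomial K →ₐ[K] F).toRingHom y P = 0)
    (hdvd : ∀ i, i < n → X ∣ P.coeff i)
    (hA : ∀ j i, (P.coeff j).coeff i ∈ A)
    (hu0 : (P.coeff 0).coeff 1 ≠ 0) (hu : ((P.coeff 0).coeff 1)⁻¹ ∈ A)
    (hfixP : ∀ j i, residue A ⟨(P.coeff j).coeff i, hA j i⟩ ^ (p ^ f) =
      residue A ⟨(P.coeff j).coeff i, hA j i⟩)
    (U V : Polynomial (Polynomial K)) (δ : Polynomial K) (hδ0 : δ ≠ 0)
    (hbez : U * P + V * derivative P = C δ)
    (hUA : ∀ j i, (U.coeff j).coeff i ∈ A) (hVA : ∀ j i, (V.coeff j).coeff i ∈ A)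
    (hδA : ∀ i, δ.coeff i ∈ A) (hδu : (δ.leadingCoeff)⁻¹ ∈ A)
    (G : Polynomial A) (hGm : G.Monic) (hGsq : Squarefree (G.map (residue A)))
    (hbr : PlaceBranch K t (G.map A.subtype)) :
    Nonempty (SpecData K F ℓ) := by
  classical
  -- the residue of the `X`-coefficient of `a_0`
  have hures : residue A (((liftP A P hA).coeff 0).coeff 1) ≠ 0 := by
    have h1 : ((liftP A P hA).coeff 0).coeff 1 = ⟨(P.coeff 0).coeff 1, hA 0 1⟩ :=
      Subtype.ext (coeff_liftP A P hA 0 1)
    rw [h1]
    exact Chev.residue_ne_zero_of_inv_mem A (hA 0 1) hu hu0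
  -- the plane model
  set M : PlaneModel K F (ResidueField A) :=
    planeModelOfEis' A (residue A) (residue_surjective) t y n hn P hfin htop hPm hPn hroot hA
      hdvd hures with hM
  have hMt : M.t = t := rfl
  have hMA : M.A = A := rfl
  have hMn : M.n = n := by
    show (liftP A P hA).natDegree = n
    rw [natDegree_liftP, hPn]
  have hMPt : M.Pt = red2 A (residue A) (liftP A P hA) := rfl
  -- the reduced Bezout certificate
  have hδA' : ∀ j i, ((C δ : Polynomial (Polynomial K)).coeff j).coeff i ∈ A := by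
    intro j i
    rw [Polynomial.coeff_C]
    split_ifs
    · exact hδA i
    · rw [Polynomial.coeff_zero]; exact A.zero_mem
  have hbezA := liftP_bezout A P U V δ hA hUA hVA hδA' hbez
  have hbezk := congrArg (red2 A (residue A)) hbezA
  rw [map_add, map_mul, map_mul, red2_derivative, red2_liftP_C] at hbezk
  set δt : Polynomial (ResidueField A) := ((liftP A (C δ) hδA').coeff 0).map (residue A) with hδt
  have hδt0 : δt ≠ 0 := by
    intro h0
    have h1 : δt.coeff δ.natDegree = 0 := by rw [h0, Polynomial.coeff_zero]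
    rw [hδt, Polynomial.coeff_map] at h1
    have h2 : ((liftP A (C δ) hδA').coeff 0).coeff δ.natDegree =
        ⟨δ.leadingCoeff, hδA δ.natDegree⟩ := by
      apply Subtype.ext
      rw [coeff_liftP, Polynomial.coeff_C_zero]
      rfl
    rw [h2] at h1
    exact Chev.residue_ne_zero_of_inv_mem A (hδA δ.natDegree) hδu
      (Polynomial.leadingCoeff_ne_zero.2 hδ0) h1
  -- coefficients fixed by the Frobenius
  have hfix : ∀ i j : ℕ, ((M.Pt.coeff i).coeff j) ^ (p ^ f) = (M.Pt.coeff i).coeff j := by
    intro i j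
    rw [hMPt, red2_coeff_coeff]
    have h1 : ((liftP A P hA).coeff i).coeff j = ⟨(P.coeff i).coeff j, hA i j⟩ :=
      Subtype.ext (coeff_liftP A P hA i j)
    rw [h1]
    exact hfixP i j
  exact nonempty_specData_of_planeModel M ℓ p hpℓ hlf f hf hfix
    (red2 A (residue A) (liftP A U hUA)) (red2 A (residue A) (liftP A V hVA)) δt hδt0 hbezk
    G hGm hGsq hbr (by rw [hMn]; exact hfin)

/-- **SPEC** (nodes B0–B5 of GATE-J27). -/
theorem specStmt : SpecStmt.{u, v} := by
  intro K F _ _ _ _ _ _ _ ℓ _
  classical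
  -- B0
  obtain ⟨x₀, hx₀⟩ := Front.exists_isGen K F
  obtain ⟨P0⟩ := Front.nonempty_place K F
  -- B1
  obtain ⟨t, y, n, P, hn, hgen, -, -, -, -, hfin, htop, hPm, hPn, hroot, hdvd, hsq, -, -,
    U, V, δ, hδ0, hbez⟩ := Eis.exists_eisenstein_presentation x₀ P0
  -- B4
  obtain ⟨G0, S, hG0m, hbr, hS⟩ :=
    Branch.exists_branch_data_of_eis.{u, u, v} x₀ hPm hroot htop hδ0 hbez
  -- the `X`-coefficient of `a_0` is nonzero
  have hu0 : (P.coeff 0).coeff 1 ≠ 0 := by
    intro h1
    apply hsq
    rw [Polynomial.X_pow_dvd_iff]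
    intro d hd
    have h0 : (P.coeff 0).coeff 0 = 0 := Polynomial.X_dvd_iff.1 (hdvd 0 hn)
    interval_cases d
    · exact h0
    · exact h1
  -- B2
  have hℓ : ((ℓ : ℕ) : K) ≠ 0 := Nat.cast_ne_zero.2 (Fact.out : ℓ.Prime).ne_zero
  obtain ⟨A, p, f, hp, hpℓ, hf, hSA, hUA, hchar, hac, hlf, hfix⟩ :=
    Chev.exists_place_units (S ∪ coeffs2 P ∪ coeffs2 U ∪ coeffs2 V ∪ δ.coeffs)
      {(P.coeff 0).coeff 1, δ.leadingCoeff} ℓ hℓ
  have : Fact p.Prime := ⟨hp⟩
  have hPA : ∀ j i, (P.coeff j).coeff i ∈ A :=
    coeff_coeff_mem_of_coeffs2 A P (fun s hs => hSA s (by simp [hs]))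
  have hUA' : ∀ j i, (U.coeff j).coeff i ∈ A :=
    coeff_coeff_mem_of_coeffs2 A U (fun s hs => hSA s (by simp [hs]))
  have hVA' : ∀ j i, (V.coeff j).coeff i ∈ A :=
    coeff_coeff_mem_of_coeffs2 A V (fun s hs => hSA s (by simp [hs]))
  have hδA : ∀ i, δ.coeff i ∈ A := by
    intro i
    by_cases h0 : δ.coeff i = 0
    · rw [h0]; exact A.zero_mem
    · exact hSA _ (by simp [Polynomial.coeff_mem_coeffs h0])
  obtain ⟨G, hGm, hG, hGsq⟩ := hS A (fun s hs => hSA s (by simp [hs]))
  refine nonempty_specData_of_place A ℓ p f hpℓ hf hlf t y n hn P hfin htop hPm hPn hroot hdvd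
    hPA hu0 (hUA _ (by simp)).2 ?_ U V δ hδ0 hbez hUA' hVA' hδA (hUA _ (by simp)).2
    G hGm (hGsq (residue A)) (by rw [hG]; exact hbr)
  intro j i
  apply hfix
  by_cases h0 : (P.coeff j).coeff i = 0
  · rw [h0]; exact Subring.zero_mem _
  · apply Subring.subset_closure
    left; left
    simp [coeff_coeff_mem_coeffs2 P j i h0]

end Main

end Fermat.Agent.GJ27.Red
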